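import Fermat.Agent.ELoc.Sign

set_option autoImplicit false

/-!
# The action of inertia on the `p`-torsion at a node, and the associated Kummer class
-/

namespace Fermat.Agent.ELoc

open WeierstrassCurve WeierstrassCurve.Affine WeierstrassCurve.Affine.Point Polynomial
open Fermat.Agent.EC (IsInt InE1 xX xZ IsKummer TrivMod)
open Fermat.Agent.ECP

section Ratio

variable {K Γ₀ : Type*} [Field K] [LinearOrderedCommGroupWithZero Γ₀] {v : Valuation K Γ₀}
  {W : WeierstrassCurve.Affine K} {e t β : K} [DecidableEq K]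

omit [DecidableEq K] in
lemma coords {P : W.Point} (hP : P ≠ 0) : xX P = xc P ∧ xZ P = 1 := by
  obtain ⟨x, y, hxy, rfl⟩ := exists_eq_some hP
  exact ⟨rfl, rfl⟩

omit [DecidableEq K] in
/-- two numbers with product and sum of valuation `g²`, `g < 1`, both have valuation `g` -/
lemma val_of_sum_prod {a b : K} {g : Γ₀} (hg0 : 0 < g) (hg : g < 1) (hs : v (a + b) ≤ g ^ 2)
    (hp : v (a * b) = g ^ 2) : v a = g ∧ v b = g := by
  have hsg : v (a + b) ≤ g := hs.trans (by
    rw [pow_two]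
    exact mul_le_of_le_one_right' hg.le)
  have h1 := EC.val_le_of_sum_prod_le v (r := g) hsg hp.le
  have h2 := EC.val_le_of_sum_prod_le v (r := g) (a := b) (b := a) (by rw [add_comm]; exact hsg)
    (by rw [mul_comm]; exact hp.le)
  rw [map_mul] at hp
  exact EC.eq_of_le_of_mul_eq hg0 h1 h2 hp

omit [DecidableEq K] in
lemma alg_ratio {X Y T β B Xp Xm μ : K} (hX : X ≠ 0) (hYT : Y * T = 1)
    (e0 : Xp * Xm = μ * (X * Y - β) ^ 2)
    (e1 : Xp + Xm = μ * (2 * (X + Y) * (X * Y) + B * (X * Y) + 2 * β * (X + Y)))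
    (e2 : μ * (X - Y) ^ 2 = 1) :
    (Xp / X - 1) * (Xm / X - 1) * (X * T - 1) ^ 2 =
      T * (-(B + 4 * X + 4 * (β / X)) + T * (β / X - X) ^ 2) ∧
    ((Xp / X - 1) + (Xm / X - 1)) * (X * T - 1) ^ 2 =
      T * (B + 6 * X + 2 * (β / X) + T * (2 * β - 2 * X ^ 2)) := by
  obtain ⟨b, rfl⟩ : ∃ b, β = b * X := ⟨β / X, by field_simp⟩
  obtain ⟨r, rfl⟩ : ∃ r, Xp = r * X := ⟨Xp / X, by field_simp⟩
  obtain ⟨r', rfl⟩ : ∃ r', Xm = r' * X := ⟨Xm / X, by field_simp⟩
  rw [mul_div_cancel_right₀ _ hX, mul_div_cancel_right₀ _ hX, mul_div_cancel_right₀ _ hX]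
  have e0' : r * r' = μ * (Y - b) ^ 2 := by
    apply mul_right_cancel₀ (pow_ne_zero 2 hX)
    linear_combination e0
  have e1' : r + r' = μ * (2 * (X + Y) * Y + B * Y + 2 * b * (X + Y)) := by
    apply mul_right_cancel₀ hX
    linear_combination e1
  have e3 : μ * (X * T - 1) ^ 2 = T ^ 2 := by
    linear_combination T ^ 2 * e2 + μ * (X * T - 1 + T * (X - Y)) * hYT
  constructor
  · linear_combination (X * T - 1) ^ 2 * e0' - (X * T - 1) ^ 2 * e1' +
      ((Y - b) ^ 2 - (2 * (X + Y) * Y + B * Y + 2 * b * (X + Y))) * e3 +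
      (-(Y * T + 1) - 4 * b * T - 2 * X * T - B * T) * hYT
  · linear_combination (X * T - 1) ^ 2 * e1' +
      (2 * (X + Y) * Y + B * Y + 2 * b * (X + Y)) * e3 +
      (2 * X * T + 2 * (Y * T + 1) + B * T + 2 * b * T) * hYT

/-- the Kummer class: `X(P+Q)/X(P)` for `Q` in the kernel of reduction -/
theorem ratio (h : NodeData v W e t β) {p : ℕ} (hp : Odd p) {P Q : W.Point}
    (hP : p • P = 0) (hP0 : P ∉ h.E0) (hQ0 : Q ≠ 0) (hQ : Q ∈ E1 v h.isInt) {g : Γ₀}
    (hg : v (xc Q) * g ^ 2 = 1) :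
    v ((xc (P + Q) - e) / (xc P - e) - 1) = g := by
  have hPz : P ≠ 0 := by rintro rfl; exact hP0 (zero_mem _)
  have hQ0' : Q ∈ h.E0 := h.E1_le_E0 hQ
  have hPp : P + Q ∉ h.E0 := fun hc => hP0 (by
    have := sub_mem hc hQ0'
    rwa [add_sub_cancel_right] at this)
  have hPm : P - Q ∉ h.E0 := fun hc => hP0 (by
    have := add_mem hc hQ0'
    rwa [sub_add_cancel] at this)
  have hPpz : P + Q ≠ 0 := by intro h0; rw [h0] at hPp; exact hPp (zero_mem _)
  have hPmz : P - Q ≠ 0 := by intro h0; rw [h0] at hPm; exact hPm (zero_mem _)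
  have hx1 : 1 < v (xc Q) := (mem_E1_iff' h.isInt hQ0).mp hQ
  have hg0 : 0 < g := by
    refine lt_of_le_of_ne zero_le fun h0 => ?_
    rw [← h0, zero_pow two_ne_zero, mul_zero] at hg
    exact zero_ne_one hg
  have hg1 : g < 1 := by
    by_contra hcon
    rw [not_lt] at hcon
    have h1 : 1 ≤ g ^ 2 := one_le_pow_of_one_le' hcon 2
    have h2 : 1 < v (xc Q) * g ^ 2 := lt_of_lt_of_le hx1 (le_mul_of_one_le_right' h1)
    exact absurd hg h2.ne'
  -- centred coordinates
  set X := xc P - e with hX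
  set Y := xc Q - e with hY
  have hvX1 : v X < 1 := by
    rw [h.mem_E0_iff_xc hPz, not_le] at hP0
    exact hP0
  have hvY : v Y = v (xc Q) := by
    rw [hY, Valuation.map_sub_eq_of_lt_left v (lt_of_le_of_lt h.e_le hx1)]
  have hvXβ : v β < v X := by
    have h1 := h.lt_cmp_of_torsion hp hP
    obtain ⟨x, y, hxy, hPe⟩ := exists_eq_some hPz
    rw [hPe] at h1
    rw [h.cmp_some_of_lt hxy (by rw [hX, hPe, xc_some] at hvX1; exact hvX1)] at h1
    rcases lt_max_iff.mp h1 with h2 | h2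
    · rw [hX, hPe, xc_some]; exact h2
    · exact absurd h2 (lt_irrefl _)
  have hX0 : X ≠ 0 := by
    intro h0; rw [h0, Valuation.map_zero] at hvXβ; exact absurd hvXβ (not_lt.mpr zero_le)
  have hvX0 : 0 < v X := lt_of_le_of_lt zero_le hvXβ
  have hY0 : Y ≠ 0 := by
    intro h0; rw [h0, Valuation.map_zero] at hvY; rw [← hvY] at hx1
    exact absurd hx1 (not_lt.mpr zero_le)
  have hvY1 : 1 < v Y := by rw [hvY]; exact hx1
  set T := Y⁻¹ with hT
  have hvT : v T = g ^ 2 := by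
    rw [hT, map_inv₀, hvY]
    exact inv_eq_of_mul_eq_one_right hg
  have hvT1 : v T < 1 := by rw [hvT]; exact pow_lt_one₀ zero_le hg1 two_ne_zero
  have hT0 : T ≠ 0 := inv_ne_zero hY0
  have hvT0 : 0 < v T := by rw [hvT]; exact pow_pos hg0 2
  -- the relation
  obtain ⟨μ, hμ, e0, e1, e2⟩ := h.isKummer.rel P Q
  simp only [(coords hPz).1, (coords hPz).2, (coords hQ0).1, (coords hQ0).2, (coords hPpz).1,
    (coords hPpz).2, (coords hPmz).1, (coords hPmz).2, mul_one] at e0 e1 e2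
  set Xp := xc (P + Q) - e with hXp
  set Xm := xc (P - Q) - e with hXm
  simp only [EC.F0, EC.F1, EC.F2, ← hX, ← hY] at e0 e1 e2
  have hYT : Y * T = 1 := mul_inv_cancel₀ hY0
  set B := W.b₂ + 12 * e with hB
  obtain ⟨hprod, hsum⟩ := alg_ratio (β := β) (B := B) (Xp := Xp) (Xm := Xm) (μ := μ) hX0 hYT
    (by linear_combination e0) (by linear_combination e1) (by linear_combination -e2)
  have hvXT : v (X * T - 1) = 1 := by
    have h2 : v (X * T) < v (1 : K) := by
      rw [map_mul, map_one]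
      exact mul_lt_one_of_nonneg_of_lt_one_left zero_le hvX1 hvT1.le
    rw [Valuation.map_sub_eq_of_lt_right v h2, map_one]
  have hvBX : v (β / X) < 1 := by rw [map_div₀]; exact (div_lt_one₀ hvX0).mpr hvXβ
  have hnat : ∀ n : ℕ, v (n : K) ≤ 1 := EC.val_natCast_le_one v
  have h2' : v (2 : K) ≤ 1 := by exact_mod_cast hnat 2
  have h4' : v (4 : K) ≤ 1 := by exact_mod_cast hnat 4
  have h6' : v (6 : K) ≤ 1 := by exact_mod_cast hnat 6
  have hvB : v B = 1 := h.unit
  have hp1 : v ((Xp / X - 1) * (Xm / X - 1)) = g ^ 2 := by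
    have h1 : v (-(B + 4 * X + 4 * (β / X)) + T * (β / X - X) ^ 2) = 1 := by
      have h3 : -(B + 4 * X + 4 * (β / X)) + T * (β / X - X) ^ 2 =
          -B + (-(4 * X + 4 * (β / X)) + T * (β / X - X) ^ 2) := by ring
      have h5 : v (-(4 * X + 4 * (β / X)) + T * (β / X - X) ^ 2) < v (-B) := by
        rw [Valuation.map_neg, hvB]
        refine (v.map_add _ _).trans_lt (max_lt ?_ ?_)
        · rw [Valuation.map_neg]
          refine (v.map_add _ _).trans_lt (max_lt ?_ ?_)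
          · rw [map_mul]; exact lt_of_le_of_lt (mul_le_of_le_one_left' h4') hvX1
          · rw [map_mul]; exact lt_of_le_of_lt (mul_le_of_le_one_left' h4') hvBX
        · rw [map_mul, map_pow]
          refine lt_of_le_of_lt (mul_le_of_le_one_right' (pow_le_one' ?_ 2)) hvT1
          exact (v.map_sub _ _).trans (max_le hvBX.le hvX1.le)
      rw [h3, Valuation.map_add_eq_of_lt_left v h5, Valuation.map_neg, hvB]
    have h6 := congrArg v hprod
    rw [map_mul, map_pow, hvXT, one_pow, mul_one, map_mul v T, h1, mul_one, hvT] at h6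
    exact h6
  have hs1 : v ((Xp / X - 1) + (Xm / X - 1)) ≤ g ^ 2 := by
    have h1 : v (B + 6 * X + 2 * (β / X) + T * (2 * β - 2 * X ^ 2)) ≤ 1 := by
      refine (v.map_add _ _).trans (max_le ((v.map_add _ _).trans (max_le
        ((v.map_add _ _).trans (max_le hvB.le ?_)) ?_)) ?_)
      · rw [map_mul]; exact mul_le_one' h6' hvX1.le
      · rw [map_mul]; exact mul_le_one' h2' hvBX.le
      · rw [map_mul]
        refine mul_le_one' hvT1.le ((v.map_sub _ _).trans (max_le ?_ ?_))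
        · rw [map_mul]; exact mul_le_one' h2' h.beta_lt.le
        · rw [map_mul, map_pow]; exact mul_le_one' h2' (pow_le_one' hvX1.le 2)
    have h6 := congrArg v hsum
    rw [map_mul, map_pow, hvXT, one_pow, mul_one, map_mul v T, hvT] at h6
    rw [h6]
    exact mul_le_of_le_one_right' h1
  exact (val_of_sum_prod hg0 hg1 hs1 hp1).1

end Ratio

section Galois

variable {R S K Γ₀ : Type*} [CommRing R] [CommRing S] [Field K] [DecidableEq K]
  [LinearOrderedCommGroupWithZero Γ₀] [Algebra R S] [Algebra R K] [Algebra S K]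
  [IsScalarTower R S K] {v : Valuation K Γ₀} {W' : Affine R}

lemma xc_smul' (σ : K ≃ₐ[S] K) {P : (W'⁄K).Point} (hP : P ≠ 0) : xc (σ • P) = σ (xc P) := by
  obtain ⟨x, y, h, rfl⟩ := exists_eq_some hP
  rfl

lemma yc_smul' (σ : K ≃ₐ[S] K) {P : (W'⁄K).Point} (hP : P ≠ 0) : yc (σ • P) = σ (yc P) := by
  obtain ⟨x, y, h, rfl⟩ := exists_eq_some hP
  rfl

lemma tc_smul' (σ : K ≃ₐ[S] K) {P : (W'⁄K).Point} (hP : P ≠ 0) : tc (σ • P) = σ (tc P) := by
  have hσa₁ : σ (W'⁄K).a₁ = (W'⁄K).a₁ := by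
    have : (W'⁄K).a₁ = algebraMap R K W'.a₁ := rfl
    rw [this, IsScalarTower.algebraMap_apply R S K]; exact σ.commutes _
  have hσa₃ : σ (W'⁄K).a₃ = (W'⁄K).a₃ := by
    have : (W'⁄K).a₃ = algebraMap R K W'.a₃ := rfl
    rw [this, IsScalarTower.algebraMap_apply R S K]; exact σ.commutes _
  rw [tc, tc, xc_smul' σ hP, yc_smul' σ hP, _root_.map_add, _root_.map_add, map_mul, map_mul,
    hσa₁, hσa₃, map_ofNat]

omit [DecidableEq K] in
/-- `(ζ ^ k - 1) / (ζ - 1) ≡ k` -/
lemma zeta_cg {ζ : K} (hζ : v (ζ - 1) < 1) (hζ1 : ζ ≠ 1) (k : ℕ) :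
    Cg v ((ζ ^ k - 1) / (ζ - 1)) k := by
  have h0 : ζ - 1 ≠ 0 := sub_ne_zero.mpr hζ1
  have hc : Cg v ζ 1 := ⟨hζ, by rw [map_one]⟩
  have e : (ζ ^ k - 1) / (ζ - 1) = ∑ i ∈ Finset.range k, ζ ^ i := by
    rw [div_eq_iff h0]
    exact (geom_sum_mul ζ k).symm
  rw [e]
  clear e
  induction k with
  | zero =>
    rw [Finset.range_zero, Finset.sum_empty, Nat.cast_zero]
    exact Cg.refl (by rw [_root_.map_zero]; exact zero_le)
  | succ k ih =>
    rw [Finset.sum_range_succ, Nat.cast_succ]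
    refine ih.add ?_
    have := hc.pow k
    rwa [one_pow] at this

/-- inertia acts through the cyclotomic character on the kernel of reduction -/
theorem smul_gen (hW : IsInt v (W'⁄K)) (h4 : v (4 : K) = 1) {p : ℕ} (hp : p.Prime)
    (hvp : v (p : K) < 1) {a : (W'⁄K).Point} (ha0 : a ≠ 0) (ha : p • a = 0) (ha1 : a ∈ E1 v hW)
    {ζ : K} (hζ1 : ζ ≠ 1) (hζ : v (xc a) * v (ζ - 1) ^ 2 = 1) {σ : K ≃ₐ[S] K}
    (hσ : TrivMod v σ) {n : ℕ} (hn : σ • a = n • a) {k : ℕ} (hk : σ ζ = ζ ^ k) :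
    σ • a = k • a := by
  have hx1 : 1 < v (xc a) := (mem_E1_iff' hW ha0).mp ha1
  have hx0 : xc a ≠ 0 := by
    intro h0
    rw [h0, _root_.map_zero] at hx1
    exact absurd hx1 (not_lt.mpr zero_le)
  have hvx0 : 0 < v (xc a) := zero_lt_one.trans hx1
  have ht0 := tc_ne_zero hW h4 ha0 hx1
  set l := ζ - 1 with hl
  have hl0 : l ≠ 0 := sub_ne_zero.mpr hζ1
  have hvl0 : 0 < v l := lt_of_le_of_ne zero_le (Ne.symm (v.ne_zero_iff.mpr hl0))
  have hvl1 : v l < 1 := by
    by_contra hcon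
    rw [not_lt] at hcon
    have h1 : 1 ≤ v l ^ 2 := one_le_pow_of_one_le' hcon 2
    have h2 : 1 < v (xc a) * v l ^ 2 := lt_of_lt_of_le hx1 (le_mul_of_one_le_right' h1)
    exact absurd hζ h2.ne'
  -- `n` is prime to `p`
  have hσa0 : σ • a ≠ 0 := by
    intro h0
    exact ha0 ((smul_eq_zero_iff_eq σ).mp h0)
  have hnp : ¬ p ∣ n := by
    intro hd
    apply hσa0
    rw [hn]
    exact (nsmul_eq_zero_iff_dvd hp ha ha0 n).mpr hd
  have hq := quot_cg hW h4 hp hvp ha0 ha ha1 hnp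
  rw [← hn, xc_smul' σ ha0, tc_smul' σ ha0] at hq
  -- the parameter
  set z := xc a / tc a with hz
  have hz0 : z ≠ 0 := div_ne_zero hx0 ht0
  have hvt : v (tc a) ^ 2 = v (xc a) ^ 3 := by
    have h1 := (tc_sq_cg hW ha0 hx1).val_eq_one h4
    rw [map_div₀, map_pow, map_pow, div_eq_one_iff_eq (pow_ne_zero 3 hvx0.ne')] at h1
    exact h1
  have hvz : v z = v l := by
    have h1 : v z ^ 2 = v l ^ 2 := by
      have h3 : v z ^ 2 * v (xc a) = 1 := by
        rw [hz, map_div₀, div_pow, hvt]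
        field_simp
      have h5 : v z ^ 2 * v (xc a) = v l ^ 2 * v (xc a) := by rw [h3, mul_comm, hζ]
      exact mul_right_cancel₀ hvx0.ne' h5
    exact (pow_left_inj₀ zero_le zero_le two_ne_zero).mp h1
  set u := z / l with hu
  have hvu : v u = 1 := by rw [hu, map_div₀, hvz, div_self hvl0.ne']
  have hu0 : u ≠ 0 := div_ne_zero hz0 hl0
  have hσu : Cg v (σ u / u) 1 := by
    refine ⟨?_, by rw [map_one]⟩
    have h1 := hσ.int u hvu.le
    have e1 : σ u / u - 1 = (σ u - u) / u := by field_simp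
    rw [e1, map_div₀, hvu, div_one]
    exact h1
  have hσl : Cg v (σ l / l) k := by
    have h1 := zeta_cg hvl1 hζ1 k
    have e1 : σ l = ζ ^ k - 1 := by rw [hl, _root_.map_sub, hk, map_one]
    rw [e1]
    exact h1
  have hσz : Cg v (σ z / z) k := by
    have h1 := hσu.mul hσl
    rw [one_mul] at h1
    have e1 : σ z / z = σ u / u * (σ l / l) := by
      have : z = u * l := by rw [hu]; field_simp
      rw [this, map_mul]
      have hl0' : σ l ≠ 0 := (map_ne_zero_iff σ σ.injective).mpr hl0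
      field_simp
    rw [e1]
    exact h1
  have hσzn : Cg v (σ z / z) n := by
    have hσt0 : σ (tc a) ≠ 0 := (map_ne_zero_iff σ σ.injective).mpr ht0
    have e1 : σ z / z = σ (xc a) * tc a / (xc a * σ (tc a)) := by
      rw [hz, map_div₀]
      field_simp
    rw [e1]
    exact hq
  have hdvd : (p : ℤ) ∣ (k : ℤ) - n := by
    by_contra hcon
    have h1 := S05.val_int_eq_one (v := v) (K := K) hp hvp hcon
    push_cast at h1
    have h2 := hσz.1
    have h3 := hσzn.1
    have e1 : (k : K) - n = (σ z / z - n) - (σ z / z - k) := by ring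
    have h5 : v ((k : K) - n) < 1 := by
      rw [e1]
      exact (v.map_sub _ _).trans_lt (max_lt h3 h2)
    exact absurd h1 h5.ne
  obtain ⟨m, hm⟩ := hdvd
  have h2 : ((k : ℤ)) • a = ((n : ℤ) + p * m : ℤ) • a := by rw [← hm]; congr 1; ring
  rw [natCast_zsmul, add_smul, natCast_zsmul, mul_comm, mul_smul, natCast_zsmul, ha, smul_zero,
    add_zero] at h2
  rw [h2, hn]

end Galois

end Fermat.Agent.ELoc
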