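import Fermat.Agent.ELoc.Act

set_option autoImplicit false

/-!
# Adapted basis of the `p`-torsion at a node
-/

namespace Fermat.Agent.ELoc

open WeierstrassCurve WeierstrassCurve.Affine WeierstrassCurve.Affine.Point Polynomial
open Fermat.Agent.EC (IsInt InE1 xX xZ IsKummer TrivMod)
open Fermat.Agent.ECP

section Zeta

variable {K Γ₀ : Type*} [Field K] [LinearOrderedCommGroupWithZero Γ₀] {v : Valuation K Γ₀}

lemma val_root_le {ζ : K} {p : ℕ} (hp0 : p ≠ 0) (hζ : ζ ^ p = 1) : v ζ ≤ 1 := by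
  have h : v ζ ^ p = 1 := by rw [← map_pow, hζ, map_one]
  exact ((pow_eq_one_iff_of_nonneg zero_le hp0).mp h).le

lemma val_one_sub_pow_le {ζ : K} (hζ : v ζ ≤ 1) (k : ℕ) : v (1 - ζ ^ k) ≤ v (1 - ζ) := by
  rw [← mul_neg_geom_sum, map_mul]
  refine mul_le_of_le_one_right' ?_
  refine v.map_sum_le fun i _ => ?_
  rw [map_pow]
  exact pow_le_one' hζ i

/-- valuation of `ζ_p - 1` -/
lemma val_zeta {p : ℕ} (hp : p.Prime) {ζ : K} (hζ : IsPrimitiveRoot ζ p) :
    v (ζ - 1) ^ (p - 1) = v (p : K) := by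
  have : Fact p.Prime := ⟨hp⟩
  have h1 := eval_one_cyclotomic_prime (R := K) (p := p)
  rw [cyclotomic_eq_prod_X_sub_primitiveRoots hζ, eval_prod] at h1
  rw [← h1, map_prod]
  have h2 : ∀ μ ∈ primitiveRoots p K, v (eval 1 (X - C μ)) = v (ζ - 1) := by
    intro μ hμ
    rw [mem_primitiveRoots hp.pos] at hμ
    rw [eval_sub, eval_X, eval_C, Valuation.map_sub_swap v ζ]
    obtain ⟨k, -, hk⟩ := hζ.eq_pow_of_pow_eq_one hμ.pow_eq_one
    obtain ⟨l, -, hl⟩ := hμ.eq_pow_of_pow_eq_one hζ.pow_eq_one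
    apply le_antisymm
    · rw [← hk]
      exact val_one_sub_pow_le (val_root_le hp.ne_zero hζ.pow_eq_one) k
    · conv_lhs => rw [← hl]
      exact val_one_sub_pow_le (val_root_le hp.ne_zero hμ.pow_eq_one) l
  rw [Finset.prod_congr rfl h2, Finset.prod_const, hζ.card_primitiveRoots,
    Nat.totient_prime hp]

end Zeta

section Basis

variable {K Γ₀ : Type*} [Field K] [LinearOrderedCommGroupWithZero Γ₀] {v : Valuation K Γ₀}
  {W : WeierstrassCurve.Affine K} {e t β : K} [DecidableEq K]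

/-- a `p`-torsion point on the first component -/
lemma exists_first (h : NodeData v W e t β) {p : ℕ} (hp : p.Prime) (hp2 : p ≠ 2) {g₀ : Γ₀}
    (hg : v β = g₀ ^ p) {R : W.Point} (hR : p • R = 0) (hR0 : R ∉ h.E0) :
    ∃ m : ℕ, m • R ∉ h.E0 ∧ v (xc (m • R) - e) = g₀ ^ 2 := by
  have hodd := hp.odd_of_ne_two hp2
  have hβ := h.beta_pos
  have hβ1 := h.beta_lt
  have hg0 : g₀ ≠ 0 := by
    rintro rfl
    rw [hg, zero_pow hp.ne_zero] at hβ
    exact lt_irrefl _ hβ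
  have hgpos : 0 < g₀ := lt_of_le_of_ne zero_le (Ne.symm hg0)
  have hg1 : g₀ < 1 := by
    by_contra hc
    rw [not_lt] at hc
    rw [hg] at hβ1
    exact absurd (one_le_pow_of_one_le' hc p) (not_le.mpr hβ1)
  obtain ⟨j, hj, hcj⟩ := EC.comp_torsion (v := v) h.isKummer hβ hβ1 h.unit hodd hg hR
  change cmp v W e β R = g₀ ^ (2 * j) at hcj
  have hj0 : 0 < j := by
    apply Nat.pos_of_ne_zero
    rintro rfl
    rw [mul_zero, pow_zero] at hcj
    exact hR0 (h.mem_E0_iff'.mpr hcj)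
  have hjp : ¬ p ∣ j := fun hd => by have := Nat.le_of_dvd hj0 hd; omega
  -- inverse of `j` modulo `p`
  obtain ⟨m, hm⟩ : ∃ m : ℕ, (p : ℤ) ∣ (m : ℤ) * j - 1 := by
    have hco : Nat.Coprime j p := by
      rw [Nat.coprime_comm, Nat.Prime.coprime_iff_not_dvd hp]
      exact hjp
    have hco' : IsCoprime (j : ℤ) (p : ℤ) := Nat.isCoprime_iff_coprime.mpr hco
    obtain ⟨a, b, hab⟩ := hco'
    refine ⟨(a % p).toNat, ?_⟩
    have hpp : (p : ℤ) ≠ 0 := by exact_mod_cast hp.ne_zero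
    rw [Int.toNat_of_nonneg (Int.emod_nonneg _ hpp)]
    have h1 : a % p = a - p * (a / p) := by rw [Int.emod_def]
    refine ⟨-(a / p) * j - b, ?_⟩
    rw [h1]
    linear_combination hab
  have hmR : p • (m • R) = 0 := by rw [smul_comm, hR, smul_zero]
  obtain ⟨i, hi, hci⟩ := EC.comp_torsion (v := v) h.isKummer hβ hβ1 h.unit hodd hg hmR
  change cmp v W e β (m • R) = g₀ ^ (2 * i) at hci
  have hsim := (EC.comp_nsmul (v := v) h.isKummer hβ hβ1 h.unit R m).1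
  change EC.Sim (v β) (cmp v W e β (m • R)) (cmp v W e β R ^ m) at hsim
  rw [hci, hcj, hg] at hsim
  obtain ⟨k, hk⟩ := hsim
  have hinj : ∀ a b : ℤ, g₀ ^ a = g₀ ^ b → a = b := fun a b hab =>
    zpow_right_injective₀ hgpos hg1.ne hab
  have hL : (g₀ ^ (2 * j)) ^ m = g₀ ^ (2 * (j : ℤ) * m) := by
    rw [← pow_mul, ← zpow_natCast]
    push_cast
    rfl
  have hP2 : (g₀ ^ p) ^ (2 * k) = g₀ ^ ((p : ℤ) * (2 * k)) := by
    rw [← zpow_natCast, ← zpow_mul]
  have hI : g₀ ^ (2 * i) = g₀ ^ (2 * (i : ℤ)) := by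
    rw [← zpow_natCast]
    push_cast
    rfl
  have hi1 : i = 1 := by
    rcases hk with hk | hk
    · have h1 : (2 * (j : ℤ) * m) = 2 * i + p * (2 * k) := by
        apply hinj
        rw [← hL, hk, hP2, zpow_add₀ hg0, hI]
      have h2 : (p : ℤ) ∣ (i : ℤ) - 1 := by
        have h3 : (i : ℤ) - 1 = ((m : ℤ) * j - 1) - p * k := by linarith
        rw [h3]
        exact dvd_sub hm (dvd_mul_right _ _)
      by_contra hne
      rcases Nat.eq_zero_or_pos i with rfl | hpos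
      · have := Int.le_of_dvd (by norm_num : (0:ℤ) < 1) ((dvd_neg (a := (p:ℤ))).mp (by simpa using h2))
        have := hp.two_le
        omega
      · have := Int.le_of_dvd (by omega) h2
        omega
    · have h1 : (2 * (j : ℤ) * m) = -(2 * i) + p * (2 * k) := by
        apply hinj
        rw [← hL, hk, hP2, zpow_add₀ hg0, zpow_neg, hI]
      have h2 : (p : ℤ) ∣ (i : ℤ) + 1 := by
        have h3 : (i : ℤ) + 1 = p * k - ((m : ℤ) * j - 1) := by linarith
        rw [h3]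
        exact dvd_sub (dvd_mul_right _ _) hm
      exfalso
      have := Int.le_of_dvd (by omega) h2
      have := hp.two_le
      omega
  rw [hi1, mul_one] at hci
  have hlt1 : g₀ ^ 2 < 1 := pow_lt_one₀ zero_le hg1 two_ne_zero
  have hnot : m • R ∉ h.E0 := by
    rw [h.mem_E0_iff', hci]
    exact hlt1.ne
  refine ⟨m, hnot, ?_⟩
  have hm0 : m • R ≠ 0 := by intro h0; rw [h0] at hnot; exact hnot (zero_mem _)
  have hx : v (xc (m • R) - e) < 1 := by
    rw [h.mem_E0_iff_xc hm0, not_le] at hnot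
    exact hnot
  obtain ⟨x, y, hxy, hxe⟩ := exists_eq_some hm0
  rw [hxe, xc_some] at hx ⊢
  rw [hxe, h.cmp_some_of_lt hxy hx] at hci
  have hβg : v β < g₀ ^ 2 := by
    rw [hg]
    exact pow_lt_pow_right_of_lt_one₀ hgpos hg1 (by have := hp.two_le; omega)
  rcases le_total (v (x - e)) (v β) with h5 | h5
  · rw [max_eq_right h5] at hci
    exact absurd hci hβg.ne
  · rwa [max_eq_left h5] at hci

end Basis

section Main

variable {R S K Γ₀ : Type*} [CommRing R] [CommRing S] [Field K] [DecidableEq K] [IsAlgClosed K]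
  [LinearOrderedCommGroupWithZero Γ₀] [Algebra R S] [Algebra R K] [Algebra S K]
  [IsScalarTower R S K] {v : Valuation K Γ₀} {W' : Affine R} {e t β : K}

/-- **Local structure of the `p`-torsion at a node** (residue characteristic `p`). -/
theorem exists_basis (h : NodeData v (W'⁄K) e t β) (h4 : v (4 : K) = 1) {p : ℕ}
    (hp : p.Prime) (hp2 : p ≠ 2) (hpK : (p : K) ≠ 0) (hvp : v (p : K) < 1)
    (hfin : {P : (W'⁄K).Point | p • P = 0}.Finite)
    (hcard : p ^ 2 ≤ {P : (W'⁄K).Point | p • P = 0}.ncard) {g₀ : Γ₀} (hg : v β = g₀ ^ p)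
    {ζ : K} (hζ : IsPrimitiveRoot ζ p) :
    ∃ a x : (W'⁄K).Point, a ≠ 0 ∧ p • a = 0 ∧ a ∈ E1 v h.isInt ∧ x ≠ 0 ∧ p • x = 0 ∧ x ∉ h.E0 ∧
      v (xc x - e) = g₀ ^ 2 ∧ (∀ Q : (W'⁄K).Point, p • Q = 0 → ∃ i j : ℕ, Q = i • a + j • x) ∧
      (∀ Q : (W'⁄K).Point, p • Q = 0 → Q ∈ h.E0 → ∃ i : ℕ, Q = i • a) ∧
      v (xc a) * v (ζ - 1) ^ 2 = 1 ∧
      ∀ σ : K ≃ₐ[S] K, TrivMod v σ → (∀ y, v (σ y) = v y) → σ e = e → σ t = t →
        (∀ k : ℕ, σ ζ = ζ ^ k → σ • a = k • a) ∧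
        ∃ κ : ℕ, σ • x = x + κ • a ∧
          (¬ p ∣ κ → v (σ (xc x - e) / (xc x - e) - 1) = v (ζ - 1)) := by
  obtain ⟨a, ha0, ha, ha1, hgen, hgen2⟩ := exists_gen h h4 hp hp2 hpK hvp hfin hcard
  obtain ⟨P, hP, hP0⟩ := exists_not_mem_E0 h h4 hp hp2 hpK hfin hcard
  obtain ⟨m, hm0, hmv⟩ := exists_first h hp hp2 hg hP hP0
  set x := m • P with hx
  have hxp : p • x = 0 := by rw [hx, smul_comm, hP, smul_zero]
  have hx0 : x ≠ 0 := by intro h0; rw [h0] at hm0; exact hm0 (zero_mem _)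
  have hval := val_xc_gen h h4 hp hp2 hpK hvp hfin hcard ha0 ha ha1 hgen
  have hvζ := val_zeta (v := v) hp hζ
  have hodd := hp.odd_of_ne_two hp2
  have hmain : v (xc a) * v (ζ - 1) ^ 2 = 1 := by
    have h1 : (v (xc a) * v (ζ - 1) ^ 2) ^ ((p - 1) / 2) = 1 := by
      rw [mul_pow, ← pow_mul]
      have h2 : 2 * ((p - 1) / 2) = p - 1 := by
        obtain ⟨k, hk⟩ := hodd
        omega
      rw [h2, hvζ, mul_comm, hval]
    have hne : (p - 1) / 2 ≠ 0 := by
      obtain ⟨k, hk⟩ := hodd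
      have := hp.two_le
      omega
    exact (pow_eq_one_iff_of_nonneg zero_le hne).mp h1
  have hζ1 : ζ ≠ 1 := hζ.ne_one hp.one_lt
  refine ⟨a, x, ha0, ha, ha1, hx0, hxp, hm0, hmv, hgen2 x hxp hm0, hgen, hmain, ?_⟩
  intro σ hσ hσv hσe hσt
  constructor
  · intro k hk
    have ha0' : a ∈ h.E0 := h.E1_le_E0 ha1
    have hσa : p • (σ • a) = 0 := by rw [smul_comm, ha, smul_zero]
    have hσa1 : σ • a ∈ h.E0 := by
      have h1 := h.E1_le_E0 (h.smul_sub_mem_E1 hσ ha0')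
      have h2 := add_mem h1 ha0'
      rwa [sub_add_cancel] at h2
    obtain ⟨n, hn⟩ := hgen _ hσa hσa1
    exact smul_gen h.isInt h4 hp hvp ha0 ha ha1 hζ1 hmain hσ hn hk
  · have h1 := h.smul_sub_mem_E0_of_torsion hσ hσv hσe hσt hodd hxp
    have h2 : p • (σ • x - x) = 0 := by
      rw [nsmul_sub, hxp, sub_zero, smul_comm, hxp, smul_zero]
    obtain ⟨κ, hκ⟩ := hgen _ h2 h1
    have h3 : σ • x = x + κ • a := by rw [← hκ]; abel
    refine ⟨κ, h3, fun hκp => ?_⟩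
    have hκa := xc_nsmul h.isInt hp hvp ha0 ha1 hκp
    have h5 := ratio h hodd hxp hm0 hκa.1 (nsmul_mem ha1 κ) (g := v (ζ - 1))
      (by rw [hκa.2.1]; exact hmain)
    rw [← h3, xc_smul' σ hx0] at h5
    have h6 : σ (xc x - e) = σ (xc x) - e := by rw [_root_.map_sub, hσe]
    rw [h6]
    exact h5

end Main

end Fermat.Agent.ELoc
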