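import Fermat.Agent.ELoc.Basis
import Fermat.Agent.ECP.FreyLocal
import Fermat.Agent.WP.Torsion

set_option autoImplicit false

/-!
# Local structure of the `p`-torsion of the Frey curve at `p`, when `p ∣ abc`
-/

namespace Fermat.Agent.ELoc

open WeierstrassCurve WeierstrassCurve.Affine WeierstrassCurve.Affine.Point
open Fermat.Agent.EC (IsInt InE1 xX xZ TrivMod)
open Fermat.Agent.ECP

local notation "Qb" => AlgebraicClosure ℚ

/-- valuations of integers -/
lemma exists_val_int {K Γ₀ : Type*} [Field K] [LinearOrderedCommGroupWithZero Γ₀]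
    {v : Valuation K Γ₀} {p : ℕ} (hp : p.Prime) (hvp : v (p : K) < 1) {n : ℤ} (hn : n ≠ 0) :
    ∃ k : ℕ, v (n : K) = v (p : K) ^ k := by
  have hfin : FiniteMultiplicity (p : ℤ) n := by
    rw [Int.finiteMultiplicity_iff]
    exact ⟨by simpa using hp.ne_one, hn⟩
  obtain ⟨m, hm, hpm⟩ := hfin.exists_eq_pow_mul_and_not_dvd
  refine ⟨multiplicity (p : ℤ) n, ?_⟩
  conv_lhs => rw [hm]
  push_cast
  rw [map_mul, map_pow, S05.val_int_eq_one (v := v) (K := K) hp hvp hpm, mul_one]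

instance frey_isElliptic (P : FreyPackage) : P.freyCurve.IsElliptic := by
  refine ⟨isUnit_iff_ne_zero.mpr ?_⟩
  intro h
  apply frey_Δ_ne_zero P ℚ
  change (P.freyCurve.map (algebraMap ℚ ℚ)).Δ = 0
  rw [WeierstrassCurve.map_Δ, h, _root_.map_zero]

theorem frey_card (P : FreyPackage) {n : ℕ} (hn : 0 < n) :
    Nat.card {Q : (P.freyCurve⁄Qb).Point // n • Q = 0} = n ^ 2 := by
  have h := Fermat.Agent.WP.card_torsion (W' := P.freyCurve)
    (IsAlgClosed.lift : AlgebraicClosure ℚ →ₐ[ℚ] ℂ) hn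
  exact h

/-- **Local structure of `E[p]` at `p`** for the Frey curve, `p ∣ abc`. -/
theorem frey_eloc (P : FreyPackage) {A : ValuationSubring Qb} (hA : A.LiesOverPrime P.p)
    (hdvd : (P.p : ℤ) ∣ P.a * P.b * P.c) {ζ : Qb} (hζ : IsPrimitiveRoot ζ P.p) :
    ∃ e x : Submodule.torsionBy ℤ (P.freyCurve⁄Qb).Point P.p,
      e ≠ 0 ∧ (∀ k : ℕ, x ≠ k • e) ∧ (∀ Q, ∃ i j : ℕ, Q = i • e + j • x) ∧
      (∀ s ∈ A.inertiaSubgroupIn ℚ, (∀ k : ℕ, s ζ = ζ ^ k → s • e = k • e) ∧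
        ∃ κ : ℕ, s • x = x + κ • e) ∧
      ∃ u : Qb, A.valuation u = 1 ∧
        (∀ s : Qb ≃ₐ[ℚ] Qb, s • x = x → s u = u) ∧
        (∀ s ∈ A.inertiaSubgroupIn ℚ, s • x ≠ x →
          A.valuation (s u / u - 1) = A.valuation (ζ - 1)) := by
  set v := A.valuation with hvdef
  set p := P.p with hpdef
  have hq : p.Prime := P.pp
  have hp5 : 5 ≤ p := P.hp5
  have hp2 : p ≠ 2 := by omega
  have hp0 : p ≠ 0 := P.hp0
  have hvq : v (p : Qb) < 1 := A.mem_nonunits_iff.mp hA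
  have hpK : (p : Qb) ≠ 0 := by exact_mod_cast hp0
  have hqZ : Prime (p : ℤ) := Int.prime_iff_natAbs_prime.mpr (by simpa using hq)
  have hv2 : v (2 : Qb) = 1 := by
    have : ¬ (p : ℤ) ∣ (2 : ℤ) := by
      intro h
      exact hp2 ((Nat.prime_dvd_prime_iff_eq hq Nat.prime_two).mp (by exact_mod_cast h))
    exact_mod_cast S05.val_int_eq_one hq hvq this
  have hv4 : v (4 : Qb) = 1 := by
    have : (4 : Qb) = 2 ^ 2 := by norm_num
    rw [this, map_pow, hv2, one_pow]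
  have hv16 : v (16 : Qb) = 1 := by
    have : (16 : Qb) = 2 ^ 4 := by norm_num
    rw [this, map_pow, hv2, one_pow]
  have cab : ¬ ((p : ℤ) ∣ P.a ∧ (p : ℤ) ∣ P.b) := by
    rintro ⟨h1, h2⟩
    have h3 := dvd_gcd h1 h2
    rw [P.hgcdab] at h3
    exact hqZ.not_isUnit (isUnit_of_dvd_one h3)
  -- reduction to a node
  have main : ∀ e t β : Qb, (∃ e' t' : ℚ, e = algebraMap ℚ Qb e' ∧ t = algebraMap ℚ Qb t') →
      NodeData v (P.freyCurve⁄Qb) e t β → (∃ k : ℕ, v β = (v (p : Qb) ^ k) ^ p) →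
      ∃ e x : Submodule.torsionBy ℤ (P.freyCurve⁄Qb).Point p,
      e ≠ 0 ∧ (∀ k : ℕ, x ≠ k • e) ∧ (∀ Q, ∃ i j : ℕ, Q = i • e + j • x) ∧
      (∀ s ∈ A.inertiaSubgroupIn ℚ, (∀ k : ℕ, s ζ = ζ ^ k → s • e = k • e) ∧
        ∃ κ : ℕ, s • x = x + κ • e) ∧
      ∃ u : Qb, v u = 1 ∧
        (∀ s : Qb ≃ₐ[ℚ] Qb, s • x = x → s u = u) ∧
        (∀ s ∈ A.inertiaSubgroupIn ℚ, s • x ≠ x →
          v (s u / u - 1) = v (ζ - 1)) := by
    rintro e t β ⟨e', t', he, ht⟩ h ⟨k, hk⟩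
    obtain ⟨hfin, -⟩ := torsion_card_le (W := (P.freyCurve⁄Qb)) hq hp2 hpK
    have hcard : p ^ 2 ≤ {Q : (P.freyCurve⁄Qb).Point | p • Q = 0}.ncard := by
      have := frey_card P (Nat.pos_of_ne_zero hp0)
      exact this.ge
    obtain ⟨a, x, ha0, ha, ha1, hx0, hx, hxE, hvx, hspan, -, -, hact⟩ :=
      exists_basis (S := ℚ) h hv4 hq hp2 hpK hvq hfin hcard hk hζ
    have hmem : ∀ Q : (P.freyCurve⁄Qb).Point, p • Q = 0 →
        Q ∈ Submodule.torsionBy ℤ (P.freyCurve⁄Qb).Point p := by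
      intro Q hQ
      rw [Submodule.mem_torsionBy_iff, natCast_zsmul]
      exact hQ
    have hpk0 : ((p : Qb) ^ k) ^ 2 ≠ 0 := pow_ne_zero 2 (pow_ne_zero k hpK)
    have hX0 : xc x - e ≠ 0 := by
      intro h0
      rw [h0, _root_.map_zero] at hvx
      have : v (p : Qb) ≠ 0 := v.ne_zero_iff.mpr hpK
      exact (pow_ne_zero 2 (pow_ne_zero k this)) hvx.symm
    refine ⟨⟨a, hmem a ha⟩, ⟨x, hmem x hx⟩, fun h0 => ha0 (congrArg Subtype.val h0), ?_, ?_, ?_,
      (xc x - e) / ((p : Qb) ^ k) ^ 2, ?_, ?_, ?_⟩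
    · intro m hm
      apply hxE
      have h1 : x = m • a := congrArg Subtype.val hm
      rw [h1]
      exact nsmul_mem (h.E1_le_E0 ha1) m
    · intro Q
      obtain ⟨i, j, hij⟩ := hspan Q (nsmul_coe_eq_zero Q)
      exact ⟨i, j, Subtype.ext hij⟩
    · intro s hs
      have hTM : TrivMod v s := EC.trivMod_of_mem_inertia A hs
      have hse : s e = e := by rw [he]; exact s.commutes e'
      have hst : s t = t := by rw [ht]; exact s.commutes t'
      obtain ⟨h1, κ, h2, -⟩ := hact s hTM (fun y => valuation_smul_eq A hs y) hse hst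
      exact ⟨fun n hn => Subtype.ext (h1 n hn), κ, Subtype.ext h2⟩
    · rw [map_div₀, hvx, map_pow, map_pow]
      exact div_self (pow_ne_zero 2 (pow_ne_zero k (v.ne_zero_iff.mpr hpK)))
    · intro s hs
      have h1 : s • x = x := congrArg Subtype.val hs
      have h2 : s (xc x) = xc x := by
        rw [← xc_smul' s hx0, h1]
      have hse : s e = e := by rw [he]; exact s.commutes e'
      rw [map_div₀, map_pow, map_pow, map_natCast, _root_.map_sub, h2, hse]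
    · intro s hs hne
      have hTM : TrivMod v s := EC.trivMod_of_mem_inertia A hs
      have hse : s e = e := by rw [he]; exact s.commutes e'
      have hst : s t = t := by rw [ht]; exact s.commutes t'
      obtain ⟨-, κ, h2, h3⟩ := hact s hTM (fun y => valuation_smul_eq A hs y) hse hst
      have hκ : ¬ p ∣ κ := by
        intro hd
        apply hne
        apply Subtype.ext
        change s • x = x
        rw [h2, (nsmul_eq_zero_iff_dvd hq ha ha0 κ).mpr hd, add_zero]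
      have h4 := h3 hκ
      have h5 : s ((xc x - e) / ((p : Qb) ^ k) ^ 2) / ((xc x - e) / ((p : Qb) ^ k) ^ 2) =
          s (xc x - e) / (xc x - e) := by
        rw [map_div₀, map_pow, map_pow, map_natCast]
        field_simp
      rw [h5]
      exact h4
  by_cases hqa : (p : ℤ) ∣ P.a
  · have hva1 : v (P.a : Qb) < 1 := S05.val_int_lt_one hvq hqa
    have hvb1 : v (P.b : Qb) = 1 := S05.val_int_eq_one hq hvq (fun h => cab ⟨hqa, h⟩)
    have hA1 : v ((P.a : Qb) ^ p) < 1 := by rw [map_pow]; exact pow_lt_one₀ zero_le hva1 hp0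
    have hB1 : v ((P.b : Qb) ^ p) = 1 := by rw [map_pow, hvb1, one_pow]
    refine main 0 0 (-((P.a : Qb) ^ P.p) * ((P.b : Qb) ^ P.p) / 16) ⟨0, 0, by simp, by simp⟩
      (frey_node_zero P v ?_ ?_) ?_
    · rw [map_div₀, hv16, div_one, map_mul, Valuation.map_neg, hB1, mul_one]
      exact hA1
    · rw [Valuation.map_sub_eq_of_lt_left v, hB1]
      rw [hB1]; exact hA1
    · obtain ⟨k, hk⟩ := exists_val_int (v := v) hq hvq P.ha0
      refine ⟨k, ?_⟩
      rw [map_div₀, hv16, div_one, map_mul, Valuation.map_neg, hB1, mul_one, map_pow, hk]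
  by_cases hqb : (p : ℤ) ∣ P.b
  · have hvb1 : v (P.b : Qb) < 1 := S05.val_int_lt_one hvq hqb
    have hva1 : v (P.a : Qb) = 1 := S05.val_int_eq_one hq hvq hqa
    have hB1 : v ((P.b : Qb) ^ p) < 1 := by rw [map_pow]; exact pow_lt_one₀ zero_le hvb1 hp0
    have hA1 : v ((P.a : Qb) ^ p) = 1 := by rw [map_pow, hva1, one_pow]
    refine main 0 0 (-((P.a : Qb) ^ P.p) * ((P.b : Qb) ^ P.p) / 16) ⟨0, 0, by simp, by simp⟩
      (frey_node_zero P v ?_ ?_) ?_
    · rw [map_div₀, hv16, div_one, map_mul, Valuation.map_neg, hA1, one_mul]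
      exact hB1
    · rw [Valuation.map_sub_eq_of_lt_right v, hA1]
      rw [hA1]; exact hB1
    · obtain ⟨k, hk⟩ := exists_val_int (v := v) hq hvq P.hb0
      refine ⟨k, ?_⟩
      rw [map_div₀, hv16, div_one, map_mul, Valuation.map_neg, hA1, one_mul, map_pow, hk]
  have hqc : (p : ℤ) ∣ P.c := by
    rcases hqZ.dvd_mul.mp hdvd with h | h
    · rcases hqZ.dvd_mul.mp h with h | h
      · exact absurd h hqa
      · exact absurd h hqb
    · exact h
  have hvc1 : v (P.c : Qb) < 1 := S05.val_int_lt_one hvq hqc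
  have hva1 : v (P.a : Qb) = 1 := S05.val_int_eq_one hq hvq hqa
  have hC1 : v ((P.c : Qb) ^ p) < 1 := by rw [map_pow]; exact pow_lt_one₀ zero_le hvc1 hp0
  have hA1 : v ((P.a : Qb) ^ p) = 1 := by rw [map_pow, hva1, one_pow]
  refine main ((P.a : Qb) ^ P.p / 4) (-((P.a : Qb) ^ P.p) / 8)
    (((P.a : Qb) ^ P.p) * ((P.c : Qb) ^ P.p) / 16)
    ⟨(P.a : ℚ) ^ P.p / 4, -((P.a : ℚ) ^ P.p) / 8, by simp, by simp⟩
    (frey_node_c P v hv4 ?_ ?_) ?_
  · rw [map_div₀, hv16, div_one, map_mul, hA1, one_mul]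
    exact hC1
  · rw [Valuation.map_add_eq_of_lt_left v, hA1]
    rw [hA1]; exact hC1
  · obtain ⟨k, hk⟩ := exists_val_int (v := v) hq hvq P.hc0
    refine ⟨k, ?_⟩
    rw [map_div₀, hv16, div_one, map_mul, hA1, one_mul, map_pow, hk]

end Fermat.Agent.ELoc
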