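import Fermat.Agent.ELoc.Psi

set_option autoImplicit false

/-!
# The kernel of reduction in the `p`-torsion at a node
-/

namespace Fermat.Agent.ELoc

open WeierstrassCurve WeierstrassCurve.Affine WeierstrassCurve.Affine.Point Polynomial
open Fermat.Agent.EC (IsInt InE1 xX xZ IsKummer)
open Fermat.Agent.ECP

section Abs

lemma exists_repr_aux {p : ℕ} [hp : Fact p.Prime] {T : Type*} [AddCommGroup T] [Module (ZMod p) T]
    [Finite T] (hcard : Nat.card T ≤ p ^ 2) {a R : T} (ha0 : a ≠ 0) (hRa : ∀ k : ℕ, R ≠ k • a)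
    (Q : T) : ∃ i j : ℕ, Q = i • a + j • R := by
  have hRN : R ∉ Submodule.span (ZMod p) {a} := by
    intro h
    obtain ⟨c, hc⟩ := Submodule.mem_span_singleton.mp h
    rw [zmod_smul_eq] at hc
    exact hRa c.val hc.symm
  have hbot : Submodule.span (ZMod p) {a} ≠ ⊥ := by
    intro h
    rw [Submodule.span_singleton_eq_bot] at h
    exact ha0 h
  have htop : Submodule.span (ZMod p) {a} ≠ ⊤ := by
    intro h
    rw [h] at hRN
    exact hRN trivial
  obtain ⟨n, hn, k, hk⟩ := exists_add_nsmul_eq hcard hbot htop hRN Q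
  obtain ⟨c, rfl⟩ := Submodule.mem_span_singleton.mp hn
  rw [zmod_smul_eq] at hk
  exact ⟨c.val, k, hk⟩

/-- every `p`-torsion element is a combination of two independent ones -/
lemma exists_repr {G : Type*} [AddCommGroup G] {p : ℕ} (hp : p.Prime)
    (hfin : {x : G | p • x = 0}.Finite) (hcard : {x : G | p • x = 0}.ncard ≤ p ^ 2) {a R : G}
    (ha : p • a = 0) (ha0 : a ≠ 0) (hR : p • R = 0) (hRa : ∀ k : ℕ, R ≠ k • a) {Q : G}
    (hQ : p • Q = 0) : ∃ i j : ℕ, Q = i • a + j • R := by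
  have : Fact p.Prime := ⟨hp⟩
  let T : AddSubgroup G := (DistribSMul.toAddMonoidHom G p).ker
  have hT : ∀ x : G, x ∈ T ↔ p • x = 0 := fun x => AddMonoidHom.mem_ker
  let _ : Module (ZMod p) T := AddCommGroup.zmodModule fun x => Subtype.ext ((hT x).mp x.2)
  have : Finite T := hfin
  have hcT : Nat.card T ≤ p ^ 2 := hcard
  obtain ⟨i, j, hij⟩ := exists_repr_aux (p := p) hcT (a := ⟨a, ha⟩) (R := ⟨R, hR⟩)
    (fun h => ha0 (congrArg Subtype.val h)) (fun k h => hRa k (congrArg Subtype.val h)) ⟨Q, hQ⟩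
  exact ⟨i, j, congrArg Subtype.val hij⟩

lemma nsmul_eq_zero_iff_dvd {G : Type*} [AddCommGroup G] {p : ℕ} (hp : p.Prime) {a : G}
    (ha : p • a = 0) (ha0 : a ≠ 0) (k : ℕ) : k • a = 0 ↔ p ∣ k := by
  have : Fact p.Prime := ⟨hp⟩
  have h : addOrderOf a = p := addOrderOf_eq_prime ha ha0
  rw [← h]
  exact (addOrderOf_dvd_iff_nsmul_eq_zero).symm

end Abs

variable {K Γ₀ : Type*} [Field K] [LinearOrderedCommGroupWithZero Γ₀] {v : Valuation K Γ₀}
  {W : WeierstrassCurve.Affine K} {e t β : K}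

lemma val_nat_eq_one {p : ℕ} (hp : p.Prime) (hvp : v (p : K) < 1) {k : ℕ} (hk : ¬ p ∣ k) :
    v (k : K) = 1 := by
  have := S05.val_int_eq_one (v := v) (K := K) (n := (k : ℤ)) hp hvp (by exact_mod_cast hk)
  exact_mod_cast this

variable [DecidableEq K]

/-- generator of the kernel of reduction -/
lemma exists_gen [IsAlgClosed K] (h : NodeData v W e t β) (h4 : v (4 : K) = 1) {p : ℕ}
    (hp : p.Prime) (hp2 : p ≠ 2) (hpK : (p : K) ≠ 0) (hvp : v (p : K) < 1)
    (hfin : {P : W.Point | p • P = 0}.Finite)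
    (hcard : p ^ 2 ≤ {P : W.Point | p • P = 0}.ncard) :
    ∃ a : W.Point, a ≠ 0 ∧ p • a = 0 ∧ a ∈ E1 v h.isInt ∧
      (∀ Q : W.Point, p • Q = 0 → Q ∈ h.E0 → ∃ k : ℕ, Q = k • a) ∧
      (∀ R : W.Point, p • R = 0 → R ∉ h.E0 → ∀ Q : W.Point, p • Q = 0 →
        ∃ i j : ℕ, Q = i • a + j • R) := by
  obtain ⟨a, ha0, ha, ha1⟩ := exists_mem_E1 h h4 hp hp2 hpK hvp hfin hcard
  obtain ⟨R, hR, hR0⟩ := exists_not_mem_E0 h h4 hp hp2 hpK hfin hcard
  have hle := (torsion_card_le (W := W) hp hp2 hpK).2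
  have ha0' : a ∈ h.E0 := h.E1_le_E0 ha1
  refine ⟨a, ha0, ha, ha1, ?_, ?_⟩
  · intro Q hQ hQ0
    by_contra hcon
    push Not at hcon
    obtain ⟨i, j, hij⟩ := exists_repr hp hfin hle ha ha0 hQ hcon hR
    apply hR0
    rw [hij]
    exact add_mem (nsmul_mem ha0' i) (nsmul_mem hQ0 j)
  · intro R hR hR0 Q hQ
    refine exists_repr hp hfin hle ha ha0 hR (fun k hk => hR0 ?_) hQ
    rw [hk]
    exact nsmul_mem ha0' k

/-- `x(kQ)` on the kernel of reduction -/
lemma xc_nsmul (hW : IsInt v W) {p : ℕ} (hp : p.Prime) (hvp : v (p : K) < 1) {a : W.Point}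
    (ha0 : a ≠ 0) (ha : a ∈ E1 v hW) {k : ℕ} (hk : ¬ p ∣ k) :
    k • a ≠ 0 ∧ v (xc (k • a)) = v (xc a) ∧ v (xc a / xc (k • a) - (k : K) ^ 2) < 1 := by
  have hx1 : 1 < v (xc a) := (mem_E1_iff' hW ha0).mp ha
  have hx0 : xc a ≠ 0 := by
    intro h0
    rw [h0, _root_.map_zero] at hx1
    exact absurd hx1 (not_lt.mpr zero_le)
  have hvx0 : 0 < v (xc a) := zero_lt_one.trans hx1
  have hZ : xZ a ≠ 0 := fun h0 => ha0 ((EC.xZ_eq_zero_iff a).mp h0)
  have hXa : xX a = xc a ∧ xZ a = 1 := by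
    obtain ⟨x, y, hxy, rfl⟩ := exists_eq_some ha0
    exact ⟨rfl, rfl⟩
  obtain ⟨⟨h1, h2⟩, -⟩ := (EC.isKummer W).t_nsmul v hW.b₂ hW.b₄ hW.b₆ hW.b₈
    ((mem_E1_iff hW).mp ha) hZ k
  rw [hXa.1, hXa.2] at h2
  have hvk : v ((k : K) ^ 2) = 1 := by rw [map_pow, val_nat_eq_one hp hvp hk, one_pow]
  have hka0 : k • a ≠ 0 := by
    intro h0
    rw [h0, EC.xZ_zero, EC.xX_zero, zero_div, zero_sub, Valuation.map_neg, map_mul, hvk,
      one_mul] at h2
    exact lt_irrefl _ h2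
  have hXk : xX (k • a) = xc (k • a) ∧ xZ (k • a) = 1 := by
    obtain ⟨x, y, hxy, hka⟩ := exists_eq_some hka0
    rw [hka]
    exact ⟨rfl, rfl⟩
  rw [hXk.1, hXk.2] at h2
  have hk1 : 1 < v (xc (k • a)) := by
    have := (mem_E1_iff' hW hka0).mp ((mem_E1_iff hW).mpr h1)
    exact this
  have hxk0 : xc (k • a) ≠ 0 := by
    intro h0
    rw [h0, _root_.map_zero] at hk1
    exact absurd hk1 (not_lt.mpr zero_le)
  have h3 : v (xc a / xc (k • a) - (k : K) ^ 2) < 1 := by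
    have e1 : xc a / xc (k • a) - (k : K) ^ 2 =
        xc a * (1 / xc (k • a) - (k : K) ^ 2 * (1 / xc a)) := by
      field_simp
    rw [e1, map_mul]
    calc v (xc a) * v (1 / xc (k • a) - (k : K) ^ 2 * (1 / xc a)) <
        v (xc a) * v (1 / xc a) := mul_lt_mul_of_pos_left h2 hvx0
      _ = 1 := by rw [← map_mul, mul_one_div_cancel hx0, map_one]
  refine ⟨hka0, ?_, h3⟩
  have h4 : v (xc a / xc (k • a)) = 1 := by
    have e1 : xc a / xc (k • a) = (k : K) ^ 2 + (xc a / xc (k • a) - (k : K) ^ 2) := by ring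
    rw [e1, Valuation.map_add_eq_of_lt_left v (by rw [hvk]; exact h3), hvk]
  rw [map_div₀, div_eq_one_iff_eq (zero_lt_one.trans hk1).ne'] at h4
  exact h4.symm

/-- valuation of the `x`-coordinate of the points in the kernel of reduction -/
lemma val_xc_gen [IsAlgClosed K] (h : NodeData v W e t β) (h4 : v (4 : K) = 1) {p : ℕ}
    (hp : p.Prime) (hp2 : p ≠ 2) (hpK : (p : K) ≠ 0) (hvp : v (p : K) < 1)
    (hfin : {P : W.Point | p • P = 0}.Finite)
    (hcard : p ^ 2 ≤ {P : W.Point | p • P = 0}.ncard) {a : W.Point} (ha0 : a ≠ 0)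
    (ha : p • a = 0) (ha1 : a ∈ E1 v h.isInt)
    (hgen : ∀ Q : W.Point, p • Q = 0 → Q ∈ h.E0 → ∃ k : ℕ, Q = k • a) :
    v (p : K) * v (xc a) ^ ((p - 1) / 2) = 1 := by
  classical
  have h1 := prod_big h h4 hp hp2 hpK hfin hcard
  have hodd := hp.odd_of_ne_two hp2
  obtain ⟨m, hm⟩ := hodd
  have hm' : (p - 1) / 2 = m := by omega
  have h2 : ({b ∈ xset W p hfin | 1 < v b} : Finset K) =
      (Finset.Icc 1 m).image (fun k : ℕ => xc (k • a)) := by
    ext b
    rw [Finset.mem_filter, mem_xset, Finset.mem_image]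
    constructor
    · rintro ⟨⟨Q, hQ0, hQ, rfl⟩, hb⟩
      obtain ⟨k, rfl⟩ := hgen Q hQ (h.E1_le_E0 ((mem_E1_iff' h.isInt hQ0).mpr hb))
      have hk : ¬ p ∣ k := fun hd => hQ0 ((nsmul_eq_zero_iff_dvd hp ha ha0 k).mpr hd)
      have hmod : k • a = (k % p) • a := by
        conv_lhs => rw [← Nat.mod_add_div k p]
        rw [add_smul, mul_comm, mul_smul, ha, smul_zero, add_zero]
      have hpos : 0 < k % p := Nat.pos_of_ne_zero fun h0 => hk (Nat.dvd_of_mod_eq_zero h0)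
      have hlt : k % p < p := Nat.mod_lt _ hp.pos
      by_cases hc : k % p ≤ m
      · exact ⟨k % p, Finset.mem_Icc.mpr ⟨hpos, hc⟩, by rw [hmod]⟩
      · refine ⟨p - k % p, Finset.mem_Icc.mpr ⟨by omega, by omega⟩, ?_⟩
        have : (p - k % p) • a = -((k % p) • a) := by
          rw [eq_neg_iff_add_eq_zero, ← add_smul, Nat.sub_add_cancel hlt.le, ha]
        rw [this, xc_neg, hmod]
    · rintro ⟨k, hk, rfl⟩
      rw [Finset.mem_Icc] at hk
      have hkp : ¬ p ∣ k := fun hd => by have := Nat.le_of_dvd (by omega) hd; omega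
      obtain ⟨h3, h4', -⟩ := xc_nsmul h.isInt hp hvp ha0 ha1 hkp
      refine ⟨⟨k • a, h3, ?_, rfl⟩, ?_⟩
      · rw [smul_comm, ha, smul_zero]
      · rw [h4']
        exact (mem_E1_iff' h.isInt ha0).mp ha1
  have hinj : Set.InjOn (fun k : ℕ => xc (k • a)) (Finset.Icc 1 m : Finset ℕ) := by
    intro k hk l hl hkl
    rw [Finset.coe_Icc, Set.mem_Icc] at hk hl
    have hkp : ¬ p ∣ k := fun hd => by have := Nat.le_of_dvd (by omega) hd; omega
    have hlp : ¬ p ∣ l := fun hd => by have := Nat.le_of_dvd (by omega) hd; omega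
    have hk0 := (xc_nsmul h.isInt hp hvp ha0 ha1 hkp).1
    have hl0 := (xc_nsmul h.isInt hp hvp ha0 ha1 hlp).1
    rcases (xc_eq_iff hk0 hl0).mp hkl with h5 | h5
    · rcases le_total k l with hle | hle
      · have h6 : (l - k) • a = 0 := by
          rw [← add_left_inj (k • a), ← add_smul, Nat.sub_add_cancel hle, zero_add, h5]
        have h7 := (nsmul_eq_zero_iff_dvd hp ha ha0 _).mp h6
        rcases Nat.eq_zero_or_pos (l - k) with h8 | h8
        · omega
        · have := Nat.le_of_dvd h8 h7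
          omega
      · have h6 : (k - l) • a = 0 := by
          rw [← add_left_inj (l • a), ← add_smul, Nat.sub_add_cancel hle, zero_add, h5]
        have h7 := (nsmul_eq_zero_iff_dvd hp ha ha0 _).mp h6
        rcases Nat.eq_zero_or_pos (k - l) with h8 | h8
        · omega
        · have := Nat.le_of_dvd h8 h7
          omega
    · exfalso
      have h6 : (k + l) • a = 0 := by rw [add_smul, h5, neg_add_cancel]
      have h7 := (nsmul_eq_zero_iff_dvd hp ha ha0 _).mp h6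
      have := Nat.le_of_dvd (by omega) h7
      omega
  rw [h2, Finset.prod_image hinj] at h1
  rw [hm', ← h1]
  congr 1
  rw [Finset.prod_congr rfl (g := fun _ => v (xc a)), Finset.prod_const, Nat.card_Icc,
    Nat.add_sub_cancel]
  intro k hk
  rw [Finset.mem_Icc] at hk
  have hkp : ¬ p ∣ k := fun hd => by have := Nat.le_of_dvd (by omega) hd; omega
  exact (xc_nsmul h.isInt hp hvp ha0 ha1 hkp).2.1

end Fermat.Agent.ELoc
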