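import Fermat.Agent.ECP.Node

set_option autoImplicit false

/-!
# Division polynomials at a node and the valuations of the `x`-coordinates of `p`-torsion points
-/

namespace Fermat.Agent.ELoc

open WeierstrassCurve WeierstrassCurve.Affine WeierstrassCurve.Affine.Point Polynomial
open Fermat.Agent.EC (IsInt InE1 xX xZ IsKummer)
open Fermat.Agent.ECP

variable {K Γ₀ : Type*} [Field K] [LinearOrderedCommGroupWithZero Γ₀] {v : Valuation K Γ₀}
  {W : WeierstrassCurve.Affine K} {e t β : K}

lemma psi2_node (h : NodeData v W e t β) : W.Ψ₂Sq.eval e = 0 := by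
  have h6 := h.h6
  rw [WeierstrassCurve.Ψ₂Sq]
  simp only [eval_add, eval_mul, eval_pow, eval_C, eval_X]
  linear_combination h6

lemma psi3_node (h : NodeData v W e t β) : W.Ψ₃.eval e = -β ^ 2 := by
  have h8 := h.h8
  rw [WeierstrassCurve.Ψ₃]
  simp only [eval_add, eval_mul, eval_pow, eval_C, eval_X, eval_ofNat]
  linear_combination h8

/-- the value of the division polynomials at the node -/
lemma val_preΨ'_node (h : NodeData v W e t β) (k : ℕ) :
    v ((W.preΨ' (2 * k + 1)).eval e) = v β ^ (k * (k + 1)) := by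
  have h2 := psi2_node h
  induction k using Nat.strong_induction_on with
  | _ k ih =>
    rcases Nat.lt_or_ge k 2 with hlt | hge
    · interval_cases k
      · simp
      · have h3 : W.preΨ' (2 * 1 + 1) = W.Ψ₃ := by simp
        rw [h3, psi3_node h, Valuation.map_neg, map_pow]
    · obtain ⟨m, rfl⟩ : ∃ m, k = m + 2 := ⟨k - 2, by omega⟩
      rw [WeierstrassCurve.preΨ'_odd]
      by_cases hm : Even m
      · obtain ⟨j, rfl⟩ := hm.two_dvd
        have e1 := ih j (by omega)
        have e3 := ih (j + 1) (by omega)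
        have hm' : Even (2 * j) := even_two_mul j
        simp only [if_pos hm', eval_sub, eval_mul, eval_pow, h2, mul_one]
        rw [zero_pow two_ne_zero, mul_zero, zero_sub, Valuation.map_neg, map_mul, map_pow, e1,
          show 2 * j + 3 = 2 * (j + 1) + 1 by ring, e3, ← pow_mul, ← pow_add]
        congr 1
        ring
      · rw [Nat.not_even_iff_odd] at hm
        obtain ⟨j, rfl⟩ := hm
        have e2 := ih (j + 1) (by omega)
        have e4 := ih (j + 2) (by omega)
        have hm' : ¬ Even (2 * j + 1) := by simp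
        simp only [if_neg hm', eval_sub, eval_mul, eval_pow, h2, mul_one]
        rw [zero_pow two_ne_zero, mul_zero, sub_zero, map_mul, map_pow,
          show 2 * j + 1 + 4 = 2 * (j + 2) + 1 by ring, e4,
          show 2 * j + 1 + 2 = 2 * (j + 1) + 1 by ring, e2, ← pow_mul, ← pow_add]
        congr 1
        ring

/-- another `2`-torsion `x`-coordinate, with good reduction -/
lemma exists_other [IsAlgClosed K] (h : NodeData v W e t β) (h4 : v (4 : K) = 1) :
    ∃ e' : K, v e' ≤ 1 ∧ W.Ψ₂Sq.eval e' = 0 ∧ v (W.Ψ₃.eval e') = 1 := by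
  have h40 : (4 : K) ≠ 0 := by
    intro h0
    rw [h0, _root_.map_zero] at h4
    exact zero_ne_one h4
  set B := W.b₂ + 12 * e with hB
  have hBu : v B = 1 := h.unit
  -- a root of `4 X² + B X + 4 β`
  have hquad : ∀ X : K, 4 * X ^ 2 + B * X + 4 * β = 0 → v X = 1 →
      ∃ e' : K, v e' ≤ 1 ∧ W.Ψ₂Sq.eval e' = 0 ∧ v (W.Ψ₃.eval e') = 1 := by
    intro X hX hvX
    refine ⟨e + X, ?_, ?_, ?_⟩
    · exact (v.map_add _ _).trans (max_le h.e_le hvX.le)
    · have h6 := h.h6
      have h4' := h.h4
      rw [WeierstrassCurve.Ψ₂Sq]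
      simp only [eval_add, eval_mul, eval_pow, eval_C, eval_X]
      linear_combination h6 + 2 * X * h4' + X * hX
    · have h6 := h.h6
      have h4' := h.h4
      have h8 := h.h8
      have e1 : W.Ψ₃.eval (e + X) = 3 * X ^ 4 + B * X ^ 3 + 6 * β * X ^ 2 - β ^ 2 := by
        rw [WeierstrassCurve.Ψ₃]
        simp only [eval_add, eval_mul, eval_pow, eval_C, eval_X, eval_ofNat]
        linear_combination h8 + 3 * X * h6 + 3 * X ^ 2 * h4'
      have e2 : 4 * (3 * X ^ 4 + B * X ^ 3 + 6 * β * X ^ 2 - β ^ 2) =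
          B * X ^ 3 + β * (12 * X ^ 2 - 4 * β) := by
        linear_combination 3 * X ^ 2 * hX
      have e3 : v (4 * (3 * X ^ 4 + B * X ^ 3 + 6 * β * X ^ 2 - β ^ 2)) = 1 := by
        have hv1 : v (B * X ^ 3) = 1 := by rw [map_mul, map_pow, hBu, hvX, one_pow, one_mul]
        have h12 : v (12 : K) ≤ 1 := by exact_mod_cast EC.val_natCast_le_one v 12
        have hv2 : v (β * (12 * X ^ 2 - 4 * β)) < v (B * X ^ 3) := by
          rw [hv1, map_mul]
          refine mul_lt_one_of_nonneg_of_lt_one_left zero_le h.beta_lt ?_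
          refine (v.map_sub _ _).trans (max_le ?_ ?_)
          · rw [map_mul, map_pow, hvX, one_pow, mul_one]; exact h12
          · rw [map_mul, h4, one_mul]; exact h.beta_lt.le
        rw [e2, Valuation.map_add_eq_of_lt_left v hv2, hv1]
      rw [map_mul, h4, one_mul] at e3
      rw [e1, e3]
  -- the roots
  obtain ⟨s, hs⟩ := IsAlgClosed.exists_pow_nat_eq (B ^ 2 - 64 * β) (n := 2) two_pos
  have h8' : (8 : K) ≠ 0 := by
    have h2 : (2 : K) ≠ 0 := by
      intro h0
      apply h40
      have : (4 : K) = 2 * 2 := by norm_num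
      rw [this, h0, mul_zero]
    have : (8 : K) = 2 * 4 := by norm_num
    rw [this]
    exact mul_ne_zero h2 h40
  have hr1 : 4 * ((-B + s) / 8) ^ 2 + B * ((-B + s) / 8) + 4 * β = 0 := by
    field_simp
    linear_combination 4 * hs
  have hr2 : 4 * ((-B - s) / 8) ^ 2 + B * ((-B - s) / 8) + 4 * β = 0 := by
    field_simp
    linear_combination 4 * hs
  -- product `β`, sum `-B/4`
  set X1 := (-B + s) / 8
  set X2 := (-B - s) / 8
  have hsum : X1 + X2 = -B / 4 := by
    simp only [X1, X2]
    have : (8 : K) = 2 * 4 := by norm_num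
    field_simp
    ring
  have hvsum : v (X1 + X2) = 1 := by
    rw [hsum, map_div₀, h4, Valuation.map_neg, hBu, div_one]
  have hle : ∀ X : K, 4 * X ^ 2 + B * X + 4 * β = 0 → v X ≤ 1 := by
    intro X hX
    by_contra hcon
    rw [not_le] at hcon
    have e1 : 4 * X ^ 2 = -(B * X + 4 * β) := by linear_combination hX
    have e2 : v (4 * X ^ 2) = v X ^ 2 := by rw [map_mul, h4, one_mul, map_pow]
    have e3 : v (B * X + 4 * β) ≤ v X := by
      refine (v.map_add _ _).trans (max_le ?_ ?_)
      · rw [map_mul, hBu, one_mul]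
      · rw [map_mul, h4, one_mul]
        exact (h.beta_lt.trans hcon).le
    rw [← Valuation.map_neg v (B * X + 4 * β), ← e1, e2, pow_two] at e3
    have : v X * 1 < v X * v X := mul_lt_mul_of_pos_left hcon (zero_lt_one.trans hcon)
    rw [mul_one] at this
    exact absurd e3 (not_le.mpr this)
  have hor : v X1 = 1 ∨ v X2 = 1 := by
    by_contra hcon
    rw [not_or] at hcon
    have k1 := lt_of_le_of_ne (hle X1 hr1) hcon.1
    have k2 := lt_of_le_of_ne (hle X2 hr2) hcon.2
    have := (v.map_add X1 X2).trans_lt (max_lt k1 k2)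
    exact absurd hvsum this.ne
  rcases hor with hv | hv
  · exact hquad X1 hr1 hv
  · exact hquad X2 hr2 hv

section Roots

variable [DecidableEq K]

/-- the `x`-coordinates of the nonzero `p`-torsion points -/
noncomputable def xset (W : WeierstrassCurve.Affine K) (p : ℕ) (hfin : {P : W.Point | p • P = 0}.Finite) :
    Finset K := by
  classical exact (hfin.toFinset.erase 0).image xc

lemma mem_xset {p : ℕ} (hfin : {P : W.Point | p • P = 0}.Finite) {a : K} :
    a ∈ xset W p hfin ↔ ∃ P : W.Point, P ≠ 0 ∧ p • P = 0 ∧ xc P = a := by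
  classical
  rw [xset, Finset.mem_image]
  constructor
  · rintro ⟨P, hP, rfl⟩
    rw [Finset.mem_erase, Set.Finite.mem_toFinset] at hP
    exact ⟨P, hP.1, hP.2, rfl⟩
  · rintro ⟨P, hP0, hP, rfl⟩
    refine ⟨P, ?_, rfl⟩
    rw [Finset.mem_erase, Set.Finite.mem_toFinset]
    exact ⟨hP0, hP⟩

lemma roots_eq_xset {p : ℕ} (hp : p.Prime) (hp2 : p ≠ 2) (hpK : (p : K) ≠ 0)
    (hfin : {P : W.Point | p • P = 0}.Finite)
    (hcard : p ^ 2 ≤ {P : W.Point | p • P = 0}.ncard) :
    (W.preΨ' p).roots = (xset W p hfin).val := by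
  classical
  have hne : W.preΨ' p ≠ 0 := W.preΨ'_ne_zero hpK
  have hodd : ¬ Even p := by rw [Nat.not_even_iff_odd]; exact hp.odd_of_ne_two hp2
  have hsub : (xset W p hfin).val ≤ (W.preΨ' p).roots := by
    rw [Multiset.le_iff_subset (xset W p hfin).nodup]
    intro a ha
    obtain ⟨P, hP0, hP, rfl⟩ := (mem_xset hfin).mp ha
    rw [Polynomial.mem_roots hne]
    exact preΨ'_eval_eq_zero hp hp2 hP0 hP
  symm
  apply Multiset.eq_of_le_of_card_le hsub
  have h1 : Multiset.card (W.preΨ' p).roots ≤ (p ^ 2 - 1) / 2 := by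
    have := Polynomial.card_roots' (W.preΨ' p)
    rwa [W.natDegree_preΨ' hpK, if_neg hodd] at this
  refine h1.trans ?_
  -- the fibres have at most two elements
  have h2 : (hfin.toFinset.erase 0).card ≤ 2 * (xset W p hfin).card := by
    rw [xset]
    apply Finset.card_le_mul_card_image
    intro a _
    have h3 := (fiber_card (W := W) a).2
    have h4 : ({x ∈ hfin.toFinset.erase 0 | xc x = a} : Finset W.Point).card ≤
        {P : W.Point | P ≠ 0 ∧ xc P = a}.ncard := by
      rw [← Set.ncard_coe_finset]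
      apply Set.ncard_le_ncard _ (fiber_card (W := W) a).1
      intro P hP
      rw [Finset.mem_coe, Finset.mem_filter, Finset.mem_erase] at hP
      exact ⟨hP.1.1, hP.2⟩
    exact h4.trans h3
  have h5 : (hfin.toFinset.erase 0).card = {P : W.Point | p • P = 0}.ncard - 1 := by
    rw [Finset.card_erase_of_mem, Set.ncard_eq_toFinset_card _ hfin]
    rw [Set.Finite.mem_toFinset]
    exact smul_zero p
  rw [h5] at h2
  change (p ^ 2 - 1) / 2 ≤ (xset W p hfin).card
  omega

/-- the polynomial as a product -/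
lemma eval_preΨ' [IsAlgClosed K] {p : ℕ} (hp : p.Prime) (hp2 : p ≠ 2) (hpK : (p : K) ≠ 0)
    (hfin : {P : W.Point | p • P = 0}.Finite)
    (hcard : p ^ 2 ≤ {P : W.Point | p • P = 0}.ncard) (x : K) :
    (W.preΨ' p).eval x = p * ∏ a ∈ xset W p hfin, (x - a) := by
  have hodd : ¬ Even p := by rw [Nat.not_even_iff_odd]; exact hp.odd_of_ne_two hp2
  have hlc : (W.preΨ' p).leadingCoeff = (p : K) := by
    rw [W.leadingCoeff_preΨ' hpK, if_neg hodd]
  have hsplit := (IsAlgClosed.splits (W.preΨ' p)).eq_prod_roots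
  conv_lhs => rw [hsplit]
  rw [eval_mul, eval_C, hlc, roots_eq_xset hp hp2 hpK hfin hcard, eval_multiset_prod,
    Multiset.map_map]
  congr 1
  simp only [Function.comp_def, eval_sub, eval_X, eval_C]
  rfl

/-- the product over the points of the kernel of reduction -/
lemma prod_big [IsAlgClosed K] (h : NodeData v W e t β) (h4 : v (4 : K) = 1) {p : ℕ} (hp : p.Prime)
    (hp2 : p ≠ 2) (hpK : (p : K) ≠ 0) (hfin : {P : W.Point | p • P = 0}.Finite)
    (hcard : p ^ 2 ≤ {P : W.Point | p • P = 0}.ncard) :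
    v (p : K) * ∏ a ∈ xset W p hfin with 1 < v a, v a = 1 := by
  classical
  obtain ⟨e', he', h2, h3⟩ := exists_other h h4
  have hodd : ¬ Even p := by rw [Nat.not_even_iff_odd]; exact hp.odd_of_ne_two hp2
  have h1 := val_preΨ'_eval_two_torsion h2 h3 p hodd
  rw [eval_preΨ' hp hp2 hpK hfin hcard, map_mul, map_prod,
    ← Finset.prod_filter_mul_prod_filter_not _ (fun a => 1 < v a), ← mul_assoc] at h1
  have h5 : ∏ a ∈ xset W p hfin with 1 < v a, v (e' - a) =
      ∏ a ∈ xset W p hfin with 1 < v a, v a := by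
    refine Finset.prod_congr rfl fun a ha => ?_
    have ha' := (Finset.mem_filter.mp ha).2
    rw [Valuation.map_sub_eq_of_lt_right v (lt_of_le_of_lt he' ha')]
  rw [h5] at h1
  have h6 : v (p : K) * ∏ a ∈ xset W p hfin with 1 < v a, v a ≤ 1 := by
    have h7 := map_leadingCoeff_mul_prod_le_one (intCoeff_preΨ' h.isInt p)
      (S := ({a ∈ xset W p hfin | 1 < v a} : Finset K).val) (by
        rw [roots_eq_xset hp hp2 hpK hfin hcard, Finset.val_le_iff]
        exact Finset.filter_subset _ _)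
    rw [W.leadingCoeff_preΨ' hpK, if_neg hodd, map_mul] at h7
    have h8 : v ({a ∈ xset W p hfin | 1 < v a} : Finset K).val.prod =
        ∏ a ∈ xset W p hfin with 1 < v a, v a := by
      rw [Finset.prod_val, map_prod]
      rfl
    rwa [h8] at h7
  have h9 : ∏ a ∈ xset W p hfin with ¬ 1 < v a, v (e' - a) ≤ 1 := by
    apply Finset.prod_le_one'
    intro a ha
    have ha' := not_lt.mp (Finset.mem_filter.mp ha).2
    exact (v.map_sub _ _).trans (max_le he' ha')
  exact (EC.mul_eq_one_of_le h6 h9 h1).1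

/-- there is a `p`-torsion point reducing to the node -/
lemma exists_not_mem_E0 [IsAlgClosed K] (h : NodeData v W e t β) (h4 : v (4 : K) = 1) {p : ℕ}
    (hp : p.Prime) (hp2 : p ≠ 2) (hpK : (p : K) ≠ 0) (hfin : {P : W.Point | p • P = 0}.Finite)
    (hcard : p ^ 2 ≤ {P : W.Point | p • P = 0}.ncard) :
    ∃ P : W.Point, p • P = 0 ∧ P ∉ h.E0 := by
  classical
  obtain ⟨k, hk⟩ := hp.odd_of_ne_two hp2
  have h1 := val_preΨ'_node h k
  rw [← hk, eval_preΨ' hp hp2 hpK hfin hcard, map_mul, map_prod,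
    ← Finset.prod_filter_mul_prod_filter_not _ (fun a => 1 < v a), ← mul_assoc] at h1
  have h5 : ∏ a ∈ xset W p hfin with 1 < v a, v (e - a) =
      ∏ a ∈ xset W p hfin with 1 < v a, v a := by
    refine Finset.prod_congr rfl fun a ha => ?_
    have ha' := (Finset.mem_filter.mp ha).2
    rw [Valuation.map_sub_eq_of_lt_right v (lt_of_le_of_lt h.e_le ha')]
  rw [h5, prod_big h h4 hp hp2 hpK hfin hcard, one_mul] at h1
  have hk0 : k ≠ 0 := by
    rintro rfl
    have := hp.two_le
    omega
  have hlt : v β ^ (k * (k + 1)) < 1 :=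
    pow_lt_one₀ zero_le h.beta_lt (mul_ne_zero hk0 (Nat.succ_ne_zero _))
  by_contra hcon
  push Not at hcon
  have h6 : ∏ a ∈ xset W p hfin with ¬ 1 < v a, v (e - a) = 1 := by
    apply Finset.prod_eq_one
    intro a ha
    obtain ⟨ha1, ha2⟩ := Finset.mem_filter.mp ha
    obtain ⟨P, hP0, hP, rfl⟩ := (mem_xset hfin).mp ha1
    have h7 := (h.mem_E0_iff_xc hP0).mp (hcon P hP)
    rw [Valuation.map_sub_swap] at h7
    exact le_antisymm ((v.map_sub _ _).trans (max_le h.e_le (not_lt.mp ha2))) h7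
  rw [h6] at h1
  exact absurd h1 hlt.ne'

/-- there is a nonzero `p`-torsion point in the kernel of reduction -/
lemma exists_mem_E1 [IsAlgClosed K] (h : NodeData v W e t β) (h4 : v (4 : K) = 1) {p : ℕ}
    (hp : p.Prime) (hp2 : p ≠ 2) (hpK : (p : K) ≠ 0) (hvp : v (p : K) < 1)
    (hfin : {P : W.Point | p • P = 0}.Finite)
    (hcard : p ^ 2 ≤ {P : W.Point | p • P = 0}.ncard) :
    ∃ P : W.Point, P ≠ 0 ∧ p • P = 0 ∧ P ∈ E1 v h.isInt := by
  classical
  by_contra hcon
  push Not at hcon
  have h1 := prod_big h h4 hp hp2 hpK hfin hcard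
  have h2 : ({a ∈ xset W p hfin | 1 < v a} : Finset K) = ∅ := by
    rw [Finset.filter_eq_empty_iff]
    intro a ha hva
    obtain ⟨P, hP0, hP, rfl⟩ := (mem_xset hfin).mp ha
    exact hcon P hP0 hP ((mem_E1_iff' h.isInt hP0).mpr hva)
  rw [h2, Finset.prod_empty, mul_one] at h1
  exact absurd h1 hvp.ne

end Roots

end Fermat.Agent.ELoc
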