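import Fermat.Agent.ELoc.Line

set_option autoImplicit false

/-!
# Inertia acts on the kernel of reduction through the cyclotomic character
-/

namespace Fermat.Agent.ELoc

open WeierstrassCurve WeierstrassCurve.Affine WeierstrassCurve.Affine.Point Polynomial
open Fermat.Agent.EC (IsInt InE1 xX xZ IsKummer TrivMod)
open Fermat.Agent.ECP

section Cg

variable {K Γ₀ : Type*} [Field K] [LinearOrderedCommGroupWithZero Γ₀] {v : Valuation K Γ₀}

variable (v) in
/-- congruence modulo the maximal ideal, between integral elements -/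
def Cg (a b : K) : Prop := v (a - b) < 1 ∧ v b ≤ 1

lemma Cg.refl {b : K} (h : v b ≤ 1) : Cg v b b := ⟨by rw [sub_self, _root_.map_zero]; exact zero_lt_one, h⟩

lemma Cg.left {a b : K} (h : Cg v a b) : v a ≤ 1 := by
  have e : a = (a - b) + b := by ring
  rw [e]
  exact (v.map_add _ _).trans (max_le h.1.le h.2)

lemma Cg.val_eq_one {a b : K} (h : Cg v a b) (hb : v b = 1) : v a = 1 := by
  have e : a = b + (a - b) := by ring
  rw [e, Valuation.map_add_eq_of_lt_left v (by rw [hb]; exact h.1), hb]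

lemma Cg.add {a b c d : K} (h : Cg v a b) (h' : Cg v c d) : Cg v (a + c) (b + d) := by
  refine ⟨?_, (v.map_add _ _).trans (max_le h.2 h'.2)⟩
  have e : a + c - (b + d) = (a - b) + (c - d) := by ring
  rw [e]
  exact (v.map_add _ _).trans_lt (max_lt h.1 h'.1)

lemma Cg.sub {a b c d : K} (h : Cg v a b) (h' : Cg v c d) : Cg v (a - c) (b - d) := by
  refine ⟨?_, (v.map_sub _ _).trans (max_le h.2 h'.2)⟩
  have e : a - c - (b - d) = (a - b) - (c - d) := by ring
  rw [e]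
  exact (v.map_sub _ _).trans_lt (max_lt h.1 h'.1)

lemma Cg.mul {a b c d : K} (h : Cg v a b) (h' : Cg v c d) : Cg v (a * c) (b * d) := by
  refine ⟨?_, by rw [map_mul]; exact mul_le_one' h.2 h'.2⟩
  have e : a * c - b * d = (a - b) * c + b * (c - d) := by ring
  rw [e]
  refine (v.map_add _ _).trans_lt (max_lt ?_ ?_)
  · rw [map_mul]
    exact lt_of_le_of_lt (mul_le_of_le_one_right' h'.left) h.1
  · rw [map_mul]
    exact lt_of_le_of_lt (mul_le_of_le_one_left' h.2) h'.1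

lemma Cg.pow {a b : K} (h : Cg v a b) (n : ℕ) : Cg v (a ^ n) (b ^ n) := by
  induction n with
  | zero => rw [pow_zero, pow_zero]; exact Cg.refl (by rw [map_one])
  | succ n ih => rw [pow_succ, pow_succ]; exact ih.mul h

end Cg

variable {K Γ₀ : Type*} [Field K] [LinearOrderedCommGroupWithZero Γ₀] {v : Valuation K Γ₀}
  {W : WeierstrassCurve.Affine K} [DecidableEq K]

omit [DecidableEq K] in
lemma tc_sq_cg (hW : IsInt v W) {a : W.Point} (ha0 : a ≠ 0) (hx1 : 1 < v (xc a)) :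
    Cg v (tc a ^ 2 / xc a ^ 3) 4 := by
  have hx0 : xc a ≠ 0 := by
    intro h0
    rw [h0, _root_.map_zero] at hx1
    exact absurd hx1 (not_lt.mpr zero_le)
  refine ⟨?_, by exact_mod_cast EC.val_natCast_le_one v 4⟩
  have e : tc a ^ 2 / xc a ^ 3 - 4 =
      (W.b₂ + 2 * W.b₄ * (xc a)⁻¹ + W.b₆ * (xc a)⁻¹ ^ 2) * (xc a)⁻¹ := by
    rw [tc_sq ha0]
    field_simp
    ring
  have hi : v (xc a)⁻¹ < 1 := by
    rw [map_inv₀]
    exact inv_lt_one_of_one_lt₀ hx1
  have h2 : v (2 : K) ≤ 1 := by exact_mod_cast EC.val_natCast_le_one v 2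
  rw [e, map_mul]
  refine lt_of_le_of_lt (mul_le_of_le_one_left' ?_) hi
  refine (v.map_add _ _).trans (max_le ((v.map_add _ _).trans (max_le hW.b₂ ?_)) ?_)
  · rw [map_mul, map_mul]
    exact mul_le_one' (mul_le_one' h2 hW.b₄) hi.le
  · rw [map_mul, map_pow]
    exact mul_le_one' hW.b₆ (pow_le_one' hi.le 2)

omit [DecidableEq K] in
lemma tc_ne_zero (hW : IsInt v W) (h4 : v (4 : K) = 1) {a : W.Point} (ha0 : a ≠ 0)
    (hx1 : 1 < v (xc a)) : tc a ≠ 0 := by
  intro h0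
  have h := (tc_sq_cg hW ha0 hx1).val_eq_one h4
  rw [h0, zero_pow two_ne_zero, zero_div, _root_.map_zero] at h
  exact zero_ne_one h

/-- the formal group is additive to first order, including signs -/
lemma quot_cg (hW : IsInt v W) (h4 : v (4 : K) = 1) {p : ℕ} (hp : p.Prime)
    (hvp : v (p : K) < 1) {a : W.Point} (ha0 : a ≠ 0) (ha : p • a = 0) (ha1 : a ∈ E1 v hW)
    {n : ℕ} (hn : ¬ p ∣ n) :
    Cg v (xc (n • a) * tc a / (xc a * tc (n • a))) n := by
  have hx1 : 1 < v (xc a) := (mem_E1_iff' hW ha0).mp ha1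
  have hx0 : xc a ≠ 0 := by
    intro h0
    rw [h0, _root_.map_zero] at hx1
    exact absurd hx1 (not_lt.mpr zero_le)
  have ht0 := tc_ne_zero hW h4 ha0 hx1
  refine ⟨?_, EC.val_natCast_le_one v n⟩
  by_cases c1 : (p : ℤ) ∣ (n : ℤ) - 1
  · have h1 : n • a = a := by
      obtain ⟨m, hm⟩ := c1
      have h2 : (n : ℤ) • a = (1 + p * m : ℤ) • a := by rw [← hm]; congr 1; ring
      rw [natCast_zsmul, add_smul, one_smul, mul_comm, mul_smul, natCast_zsmul, ha, smul_zero,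
        add_zero] at h2
      exact h2
    rw [h1, div_self (mul_ne_zero hx0 ht0), Valuation.map_sub_swap]
    have h3 := S05.val_int_lt_one (v := v) (K := K) hvp c1
    push_cast at h3
    exact h3
  by_cases c2 : (p : ℤ) ∣ (n : ℤ) + 1
  · have h1 : n • a = -a := by
      obtain ⟨m, hm⟩ := c2
      have h2 : ((n : ℤ) + 1) • a = (p * m : ℤ) • a := by rw [← hm]
      rw [add_smul, one_smul, natCast_zsmul, mul_comm, mul_smul, natCast_zsmul, ha, smul_zero] at h2
      exact eq_neg_of_add_eq_zero_left h2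
    rw [h1, xc_neg, tc_neg ha0, mul_neg, div_neg, div_self (mul_ne_zero hx0 ht0)]
    have e : (-1 : K) - n = -(n + 1) := by ring
    rw [e, Valuation.map_neg]
    have h3 := S05.val_int_lt_one (v := v) (K := K) hvp c2
    push_cast at h3
    exact h3
  obtain ⟨m, rfl⟩ : ∃ m, n = m + 1 := ⟨n - 1, by
    have : n ≠ 0 := by rintro rfl; exact hn (dvd_zero p)
    omega⟩
  have hm : ¬ p ∣ m := by
    intro hd
    apply c1
    push_cast
    rw [add_sub_cancel_right]
    exact_mod_cast hd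
  have hm2 : ¬ p ∣ m + 2 := by
    intro hd
    apply c2
    have : ((m + 1 : ℕ) : ℤ) + 1 = ((m + 2 : ℕ) : ℤ) := by push_cast; ring
    rw [this]
    exact_mod_cast hd
  obtain ⟨k0, k1, k2⟩ := xc_nsmul hW hp hvp ha0 ha1 hn
  obtain ⟨l0, l1, l2⟩ := xc_nsmul hW hp hvp ha0 ha1 hm
  obtain ⟨j0, j1, j2⟩ := xc_nsmul hW hp hvp ha0 ha1 hm2
  have hne : ∀ {Q : W.Point}, v (xc Q) = v (xc a) → xc Q ≠ 0 := by
    intro Q hQ h0
    rw [h0, _root_.map_zero] at hQ
    rw [← hQ] at hx1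
    exact absurd hx1 (not_lt.mpr zero_le)
  have kx := hne k1
  have lx := hne l1
  have jx := hne j1
  set x := xc a with hx
  set r := x / xc ((m + 1) • a) with hr
  set r1 := x / xc (m • a) with hr1
  set r2 := x / xc ((m + 2) • a) with hr2
  have vle : ∀ n : ℕ, v ((n : K) ^ 2) ≤ 1 := fun n => by
    rw [map_pow]; exact pow_le_one' (EC.val_natCast_le_one v n) 2
  have cr : Cg v r (((m + 1 : ℕ) : K) ^ 2) := ⟨k2, vle _⟩
  have cr1 : Cg v r1 ((m : K) ^ 2) := ⟨l2, vle _⟩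
  have cr2 : Cg v r2 (((m + 2 : ℕ) : K) ^ 2) := ⟨j2, vle _⟩
  have c1' : Cg v (1 : K) 1 := Cg.refl (by rw [map_one])
  have cD := (cr2.sub cr1).mul ((c1'.sub cr).pow 2)
  have cN := (tc_sq_cg hW ha0 hx1).mul (cr.mul (cr2.mul cr1))
  rw [← hx] at cN
  -- the denominators are units
  have hD1 : v (((m + 2 : ℕ) : K) ^ 2 - (m : K) ^ 2) = 1 := by
    have e : ((m + 2 : ℕ) : K) ^ 2 - (m : K) ^ 2 = 4 * ((m + 1 : ℕ) : K) := by push_cast; ring
    rw [e, map_mul, h4, one_mul, val_nat_eq_one hp hvp hn]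
  have hD2 : v (1 - ((m + 1 : ℕ) : K) ^ 2) = 1 := by
    have e : 1 - ((m + 1 : ℕ) : K) ^ 2 = -((m : K) * ((m + 2 : ℕ) : K)) := by push_cast; ring
    rw [e, Valuation.map_neg, map_mul, val_nat_eq_one hp hvp hm, val_nat_eq_one hp hvp hm2, one_mul]
  have hD0 : v ((((m + 2 : ℕ) : K) ^ 2 - (m : K) ^ 2) * (1 - ((m + 1 : ℕ) : K) ^ 2) ^ 2) = 1 := by
    rw [map_mul, map_pow, hD1, hD2, one_pow, one_mul]
  have hvD := cD.val_eq_one hD0
  have hD : (r2 - r1) * (1 - r) ^ 2 ≠ 0 := by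
    intro h0
    rw [h0, _root_.map_zero] at hvD
    exact zero_ne_one hvD
  have hr0 : 1 - r ≠ 0 := fun h0 => hD (by rw [h0]; ring)
  have hr12 : r2 - r1 ≠ 0 := fun h0 => hD (by rw [h0]; ring)
  have hxne : xc ((m + 1) • a) ≠ x := by
    intro h0
    apply hr0
    rw [hr, h0, div_self hx0, sub_self]
  have hA3 := A3 k0 ha0 hxne
  have e1 : (m + 1) • a - a = m • a := by rw [succ_nsmul]; abel
  have e2 : (m + 1) • a + a = (m + 2) • a := by rw [← succ_nsmul]
  rw [e1, e2, ← hx] at hA3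
  have hxr : xc ((m + 1) • a) = x / r := by rw [hr]; field_simp
  have hxr1 : xc (m • a) = x / r1 := by rw [hr1]; field_simp
  have hxr2 : xc ((m + 2) • a) = x / r2 := by rw [hr2]; field_simp
  have hrn : r ≠ 0 := div_ne_zero hx0 kx
  have hr1n : r1 ≠ 0 := div_ne_zero hx0 lx
  have hr2n : r2 ≠ 0 := div_ne_zero hx0 jx
  have htn : tc ((m + 1) • a) ≠ 0 := by
    intro h0
    rw [h0, zero_mul, hxr, hxr1, hxr2] at hA3
    apply hD
    have h5 : (x / r1 - x / r2) * (x / r - x) ^ 2 =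
        x ^ 3 / (r1 * r2 * r ^ 2) * ((r2 - r1) * (1 - r) ^ 2) := by
      field_simp
    rw [h5] at hA3
    rcases mul_eq_zero.mp hA3 with h6 | h6
    · exfalso
      exact (div_ne_zero (pow_ne_zero 3 hx0)
        (mul_ne_zero (mul_ne_zero hr1n hr2n) (pow_ne_zero 2 hrn))) h6
    · exact h6
  set q := xc ((m + 1) • a) * tc a / (x * tc ((m + 1) • a)) with hq
  have hmain : q * ((r2 - r1) * (1 - r) ^ 2) = tc a ^ 2 / x ^ 3 * (r * (r2 * r1)) := by
    have h5 : (x / r1 - x / r2) * (x / r - x) ^ 2 =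
        x ^ 3 / (r1 * r2 * r ^ 2) * ((r2 - r1) * (1 - r) ^ 2) := by
      field_simp
    rw [hxr, hxr1, hxr2, h5] at hA3
    have h6 : (r2 - r1) * (1 - r) ^ 2 =
        tc ((m + 1) • a) * tc a * (r1 * r2 * r ^ 2) / x ^ 3 := by
      rw [← hA3]
      field_simp
    rw [h6, hq, hxr]
    field_simp
  have hfin : (q - ((m + 1 : ℕ) : K)) * ((r2 - r1) * (1 - r) ^ 2) =
      (tc a ^ 2 / x ^ 3 * (r * (r2 * r1)) -
        4 * (((m + 1 : ℕ) : K) ^ 2 * (((m + 2 : ℕ) : K) ^ 2 * (m : K) ^ 2))) -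
      ((m + 1 : ℕ) : K) * ((r2 - r1) * (1 - r) ^ 2 -
        (((m + 2 : ℕ) : K) ^ 2 - (m : K) ^ 2) * (1 - ((m + 1 : ℕ) : K) ^ 2) ^ 2) := by
    rw [sub_mul, hmain]
    push_cast
    ring
  have hlt : v ((q - ((m + 1 : ℕ) : K)) * ((r2 - r1) * (1 - r) ^ 2)) < 1 := by
    rw [hfin]
    refine (v.map_sub _ _).trans_lt (max_lt cN.1 ?_)
    rw [map_mul]
    exact lt_of_le_of_lt (mul_le_of_le_one_left' (EC.val_natCast_le_one v _)) cD.1
  rwa [map_mul, hvD, mul_one] at hlt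

end Fermat.Agent.ELoc
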